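import Fermat.Agent.S22.GlueMain

/-!
# S22 glue, part 4: the final assembly
-/

set_option autoImplicit false

namespace FA_S22

open UpperHalfPlane Matrix.SpecialLinearGroup
open P2MW.S_ModularForm_heckeT_slash_eq_self_of_mem_Gamma0.ModularForm.HeckeSlashInvariance
open scoped ModularForm MatrixGroups Manifold

lemma FA_S22_det_heckeRep_pos (p : ℕ) (x : OnePoint (ZMod p)) :
    (0 : ℝ) < (heckeRep p x).det.val := by
  induction x using OnePoint.rec with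
  | infty => exact ModularForm.det_heckeDiagMatrix_pos p
  | coe j => exact ModularForm.det_heckeMatrix_pos p j.val

lemma FA_S22_isIntMat_heckeRep {p : ℕ} (hp : p ≠ 0) (x : OnePoint (ZMod p)) :
    ∃ A : Matrix (Fin 2) (Fin 2) ℤ, FA_S22_IsIntMat (heckeRep p x) A := by
  induction x using OnePoint.rec with
  | infty => exact ⟨_, FA_S22_isIntMat_heckeDiagMatrix hp⟩
  | coe j => exact ⟨_, FA_S22_isIntMat_heckeMatrix hp j.val⟩

section final

variable (N : ℕ) [NeZero N] (n : ℕ) (S : Set ℕ)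

/-- the correspondence as an additive subgroup -/
def FA_S22_R : AddSubgroup (CuspForm (CongruenceSubgroup.Gamma0 N) ((n : ℤ) + 2) ×
    (↥(CongruenceSubgroup.Gamma0 N) → Fin (n + 1) → ℂ)) where
  carrier := {p | FA_S22_Rel N n (⇑p.1) p.2}
  add_mem' := by
    intro a b ha hb
    exact FA_S22_Rel.add ha hb
  zero_mem' := FA_S22_Rel.zero N n
  neg_mem' := by
    intro a ha
    exact FA_S22_Rel.neg ha

/-- index type of the Hecke generators -/
abbrev FA_S22_idx : Type :=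
  {ℓ : ℕ // ℓ.Prime ∧ ¬ ℓ ∣ N ∧ ℓ ∉ S} ⊕ {q : ℕ // q.Prime ∧ q ∣ N ∧ q ∉ S}

/-- the Hecke generators -/
noncomputable def FA_S22_TV : FA_S22_idx N S →
    Module.End ℂ (CuspForm (CongruenceSubgroup.Gamma0 N) ((n : ℤ) + 2)) :=
  Sum.elim (fun ℓ => CuspForm.heckeTLin ((n : ℤ) + 2) ℓ.2.1 ℓ.2.2.1)
    (fun q => CuspForm.heckeULin ((n : ℤ) + 2) q.2.2.1)

lemma FA_S22_range_TV :
    Set.range (FA_S22_TV N n S) = CuspForm.heckeGenerators N ((n : ℤ) + 2) S := by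
  ext T
  constructor
  · rintro ⟨i, rfl⟩
    rcases i with ℓ | q
    · exact Or.inl ⟨ℓ.1, ℓ.2.1, ℓ.2.2.1, ℓ.2.2.2, rfl⟩
    · exact Or.inr ⟨q.1, q.2.2.1, q.2.1, q.2.2.2, rfl⟩
  · rintro (⟨ℓ, hℓ, hℓN, hℓS, rfl⟩ | ⟨q, hqN, hq, hqS, rfl⟩)
    · exact ⟨Sum.inl ⟨ℓ, hℓ, hℓN, hℓS⟩, rfl⟩
    · exact ⟨Sum.inr ⟨q, hq, hqN, hqS⟩, rfl⟩

/-- the Hecke operators on cocycles -/
noncomputable def FA_S22_TH : FA_S22_idx N S →
    Module.End ℂ (↥(CongruenceSubgroup.Gamma0 N) → Fin (n + 1) → ℂ) :=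
  Sum.elim
    (fun ℓ =>
      haveI : Fact ℓ.1.Prime := ⟨ℓ.2.1⟩
      FA_S22_cocOp N n (heckeRep ℓ.1) (FA_S22_hexT N ℓ.1 ℓ.2.2.1))
    (fun q =>
      haveI : NeZero q.1 := ⟨q.2.1.ne_zero⟩
      FA_S22_cocOp N n (FA_S22_alphaU q.1) (FA_S22_hexU N q.1 q.2.2.1))

theorem FA_S22_finite_even :
    Module.Finite ℤ (CuspForm.heckeAlgebra N ((n : ℤ) + 2) S) := by
  have key := FA_S22_finite_adjoin (FA_S22_TV N n S) (FA_S22_TH N n S)
    (FA_S22_intCocycles (FA_S22_M N n))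
    (FA_S22_intCocycles_fg (FA_S22_M N n) (FA_S22_M_one N n))
    (by
      rintro (ℓ | q) c hc
      · haveI : Fact ℓ.1.Prime := ⟨ℓ.2.1⟩
        exact FA_S22_lattice_hecke N n (heckeRep ℓ.1) (FA_S22_hexT N ℓ.1 ℓ.2.2.1)
          (FA_S22_huniqT N ℓ.1) (FA_S22_isIntMat_heckeRep ℓ.2.1.ne_zero) c hc
      · haveI : NeZero q.1 := ⟨q.2.1.ne_zero⟩
        exact FA_S22_lattice_hecke N n (FA_S22_alphaU q.1) (FA_S22_hexU N q.1 q.2.2.1)
          (FA_S22_huniqU N q.1)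
          (fun x => ⟨_, FA_S22_isIntMat_heckeMatrix q.2.1.ne_zero x.val⟩) c hc)
    (FA_S22_R N n)
    (by
      rintro (ℓ | q) ⟨f, c⟩ hp
      · haveI : Fact ℓ.1.Prime := ⟨ℓ.2.1⟩
        have h := FA_S22_rel_hecke N n (heckeRep ℓ.1) (FA_S22_hexT N ℓ.1 ℓ.2.2.1)
          (FA_S22_huniqT N ℓ.1) (FA_S22_det_heckeRep_pos ℓ.1) hp
        show FA_S22_Rel N n _ _
        simp only [FA_S22_TV, Sum.elim_inl, CuspForm.coe_heckeTLin_apply]
        rw [heckeT_eq_sum_onePoint]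
        exact h
      · haveI : NeZero q.1 := ⟨q.2.1.ne_zero⟩
        have h := FA_S22_rel_hecke N n (FA_S22_alphaU q.1) (FA_S22_hexU N q.1 q.2.2.1)
          (FA_S22_huniqU N q.1) (fun x => ModularForm.det_heckeMatrix_pos q.1 x.val) hp
        show FA_S22_Rel N n _ _
        simp only [FA_S22_TV, Sum.elim_inr, CuspForm.coe_heckeULin_apply]
        rw [heckeU_eq_sum_zmod]
        exact h)
    (by
      rintro ⟨f, c⟩ hp
      exact FA_S22_rel_span N n hp)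
    (fun f => by
      obtain ⟨c, hc⟩ := FA_S22_rel_surj N n f
      exact ⟨c, hc⟩)
    (fun f hf => FA_S22_rel_inj N n f hf)
  rw [FA_S22_range_TV] at key
  exact key

end final

/-- **S22**: the Hecke algebra is a finitely generated `ℤ`-module. -/
theorem FA_S22_main (N : ℕ) [NeZero N] (k : ℤ) (S : Set ℕ) :
    Module.Finite ℤ (CuspForm.heckeAlgebra N k S) := by
  by_cases hk : Odd k ∨ k ≤ 0
  · exact FA_S22_finite_trivial N k S hk
  · push Not at hk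
    obtain ⟨hodd, hpos⟩ := hk
    have h2 : 2 ≤ k := by
      by_contra hlt
      have : k = 1 := by omega
      exact hodd (this ▸ odd_one)
    obtain ⟨n, rfl⟩ : ∃ n : ℕ, k = (n : ℤ) + 2 := ⟨(k - 2).toNat, by omega⟩
    exact FA_S22_finite_even N n S

end FA_S22
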