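import Mathlib

/-!
# S22, D2: integral cocycles are finitely generated and span the complex cocycles

`Γ` a finitely generated group, `M : Γ → Matrix (Fin m) (Fin m) ℤ` (only `M 1 = 1` is used),
cocycles `c : Γ → ℂ^m` for the right action `v ↦ (M δ) *ᵥ v`:
`c (γ δ) = (M δ) *ᵥ c γ + c δ`.

* `FA_S22_intCocycles_fg` : the `ℤ`-module of cocycles with integer coordinates is f.g.
* `FA_S22_cocycles_le_span` : every complex cocycle is a `ℂ`-combination of integral cocycles.
-/

set_option autoImplicit false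

namespace FA_S22

section Lattice

variable {Γ : Type*} [Group Γ] {m : ℕ} (M : Γ → Matrix (Fin m) (Fin m) ℤ)

/-- complex cocycles for the right action `v ↦ (M δ) *ᵥ v` -/
def FA_S22_cocycles : Submodule ℂ (Γ → Fin m → ℂ) where
  carrier := {c | ∀ γ δ, c (γ * δ) = ((M δ).map (Int.cast : ℤ → ℂ)).mulVec (c γ) + c δ}
  add_mem' := by
    intro a b ha hb γ δ
    simp only [Pi.add_apply, ha γ δ, hb γ δ, Matrix.mulVec_add]
    abel
  zero_mem' := by
    intro γ δ
    simp
  smul_mem' := by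
    intro z a ha γ δ
    simp only [Pi.smul_apply, ha γ δ, Matrix.mulVec_smul, smul_add]

/-- cocycles all of whose values have integer coordinates -/
def FA_S22_intCocycles : Submodule ℤ (Γ → Fin m → ℂ) where
  carrier := {c | (∀ γ δ, c (γ * δ) = ((M δ).map (Int.cast : ℤ → ℂ)).mulVec (c γ) + c δ) ∧
                  ∀ γ j, ∃ a : ℤ, c γ j = (a : ℂ)}
  add_mem' := by
    rintro a b ⟨ha, ha'⟩ ⟨hb, hb'⟩
    refine ⟨fun γ δ => ?_, fun γ j => ?_⟩
    · simp only [Pi.add_apply, ha γ δ, hb γ δ, Matrix.mulVec_add]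
      abel
    · obtain ⟨x, hx⟩ := ha' γ j
      obtain ⟨y, hy⟩ := hb' γ j
      exact ⟨x + y, by simp [hx, hy]⟩
  zero_mem' := by
    refine ⟨fun γ δ => by simp, fun γ j => ⟨0, by simp⟩⟩
  smul_mem' := by
    rintro z a ⟨ha, ha'⟩
    refine ⟨fun γ δ => ?_, fun γ j => ?_⟩
    · simp only [Pi.smul_apply, ha γ δ, Matrix.mulVec_smul, smul_add]
    · obtain ⟨x, hx⟩ := ha' γ j
      exact ⟨z * x, by simp [hx]⟩

theorem FA_S22_mem_cocycles_iff (c : Γ → Fin m → ℂ) :
    c ∈ FA_S22_cocycles M ↔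
      ∀ γ δ, c (γ * δ) = ((M δ).map (Int.cast : ℤ → ℂ)).mulVec (c γ) + c δ := Iff.rfl

theorem FA_S22_mem_intCocycles_iff (c : Γ → Fin m → ℂ) :
    c ∈ FA_S22_intCocycles M ↔
      (∀ γ δ, c (γ * δ) = ((M δ).map (Int.cast : ℤ → ℂ)).mulVec (c γ) + c δ) ∧
        ∀ γ j, ∃ a : ℤ, c γ j = (a : ℂ) := Iff.rfl

theorem FA_S22_intCocycles_le_cocycles (c : Γ → Fin m → ℂ) (hc : c ∈ FA_S22_intCocycles M) :
    c ∈ FA_S22_cocycles M := hc.1

/-- coordinates of the cocycle relation -/
theorem FA_S22_cocycle_apply {c : Γ → Fin m → ℂ} (hc : c ∈ FA_S22_cocycles M) (γ δ : Γ)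
    (j : Fin m) : c (γ * δ) j = ∑ k, ((M δ j k : ℤ) : ℂ) * c γ k + c δ j := by
  rw [hc γ δ]
  simp [Matrix.mulVec, dotProduct]

theorem FA_S22_cocycle_one (hM1 : M 1 = 1) {c : Γ → Fin m → ℂ} (hc : c ∈ FA_S22_cocycles M) :
    c 1 = 0 := by
  have h := hc 1 1
  rw [mul_one, hM1] at h
  have h1 : ((1 : Matrix (Fin m) (Fin m) ℤ).map (Int.cast : ℤ → ℂ)) = 1 := by
    ext i j
    simp [Matrix.one_apply, Matrix.map_apply]
  rw [h1, Matrix.one_mulVec] at h
  simpa using h

theorem FA_S22_cocycle_inv_apply (hM1 : M 1 = 1) {c : Γ → Fin m → ℂ}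
    (hc : c ∈ FA_S22_cocycles M) (γ : Γ) (j : Fin m) :
    c γ⁻¹ j = -∑ k, ((M γ⁻¹ j k : ℤ) : ℂ) * c γ k := by
  have h := FA_S22_cocycle_apply M hc γ γ⁻¹ j
  rw [mul_inv_cancel, FA_S22_cocycle_one M hM1 hc] at h
  simp only [Pi.zero_apply] at h
  rw [eq_neg_iff_add_eq_zero, add_comm]
  exact h.symm

/-- A cocycle whose values on a generating set have coordinates in an additive subgroup `A` of
`ℂ` has all its coordinates in `A`. -/
theorem FA_S22_cocycle_mem_of_gen (hM1 : M 1 = 1) (A : AddSubgroup ℂ) (S : Set Γ)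
    (hS : Subgroup.closure S = ⊤) {c : Γ → Fin m → ℂ} (hc : c ∈ FA_S22_cocycles M)
    (h : ∀ s ∈ S, ∀ j, c s j ∈ A) : ∀ γ j, c γ j ∈ A := by
  have hsum : ∀ (N : Matrix (Fin m) (Fin m) ℤ) (v : Fin m → ℂ), (∀ k, v k ∈ A) →
      ∀ j, ∑ k, ((N j k : ℤ) : ℂ) * v k ∈ A := by
    intro N v hv j
    refine A.sum_mem fun k _ => ?_
    rw [← zsmul_eq_mul]
    exact A.zsmul_mem (hv k) _
  let H : Subgroup Γ :=
    { carrier := {γ | ∀ j, c γ j ∈ A}
      one_mem' := by
        intro j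
        rw [FA_S22_cocycle_one M hM1 hc]
        exact A.zero_mem
      mul_mem' := by
        intro γ δ hγ hδ j
        rw [FA_S22_cocycle_apply M hc]
        exact A.add_mem (hsum _ _ hγ j) (hδ j)
      inv_mem' := by
        intro γ hγ j
        rw [FA_S22_cocycle_inv_apply M hM1 hc]
        exact A.neg_mem (hsum _ _ hγ j) }
  have hH : H = ⊤ := by
    rw [eq_top_iff, ← hS, Subgroup.closure_le]
    exact fun s hs => h s hs
  intro γ
  have : γ ∈ H := by rw [hH]; trivial
  exact this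

/-- A cocycle vanishing on a generating set vanishes. -/
theorem FA_S22_cocycle_eq_zero_of_gen (hM1 : M 1 = 1) (S : Set Γ)
    (hS : Subgroup.closure S = ⊤) {c : Γ → Fin m → ℂ} (hc : c ∈ FA_S22_cocycles M)
    (h : ∀ s ∈ S, c s = 0) : c = 0 := by
  funext γ j
  have := FA_S22_cocycle_mem_of_gen M hM1 ⊥ S hS hc (fun s hs j => by simp [h s hs]) γ j
  simpa using this

/-- The integers as an additive subgroup of `ℂ`. -/
def FA_S22_intSubgroup : AddSubgroup ℂ := (Int.castAddHom ℂ).range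

theorem FA_S22_mem_intSubgroup_iff (z : ℂ) : z ∈ FA_S22_intSubgroup ↔ ∃ a : ℤ, z = (a : ℂ) := by
  simp only [FA_S22_intSubgroup, AddMonoidHom.mem_range, Int.coe_castAddHom]
  exact ⟨fun ⟨a, ha⟩ => ⟨a, ha.symm⟩, fun ⟨a, ha⟩ => ⟨a, ha.symm⟩⟩

/-- A cocycle which is integral on a generating set is integral. -/
theorem FA_S22_mem_intCocycles_of_gen (hM1 : M 1 = 1) (S : Set Γ)
    (hS : Subgroup.closure S = ⊤) {c : Γ → Fin m → ℂ} (hc : c ∈ FA_S22_cocycles M)
    (h : ∀ s ∈ S, ∀ j, ∃ a : ℤ, c s j = (a : ℂ)) : c ∈ FA_S22_intCocycles M := by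
  refine ⟨hc, fun γ j => ?_⟩
  rw [← FA_S22_mem_intSubgroup_iff]
  exact FA_S22_cocycle_mem_of_gen M hM1 FA_S22_intSubgroup S hS hc
    (fun s hs j => (FA_S22_mem_intSubgroup_iff _).mpr (h s hs j)) γ j

/-- The integral cocycles form a finitely generated `ℤ`-module. -/
theorem FA_S22_intCocycles_fg [Group.FG Γ] (hM1 : M 1 = 1) : (FA_S22_intCocycles M).FG := by
  classical
  obtain ⟨S, hS⟩ := Group.FG.out (G := Γ)
  -- restriction to the generators
  let r : (Γ → Fin m → ℂ) →ₗ[ℤ] (S → Fin m → ℂ) :=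
    { toFun := fun c s => c s.1
      map_add' := fun _ _ => rfl
      map_smul' := fun _ _ => rfl }
  -- the integral functions on the generators
  let cast : (S → Fin m → ℤ) →ₗ[ℤ] (S → Fin m → ℂ) :=
    { toFun := fun f s j => (f s j : ℂ)
      map_add' := fun f g => by ext s j; simp
      map_smul' := fun n f => by ext s j; simp }
  have hle : (FA_S22_intCocycles M).map r ≤ LinearMap.range cast := by
    rintro _ ⟨c, hc, rfl⟩
    choose a ha using hc.2
    exact ⟨fun s j => a s.1 j, by ext s j; simp [cast, r, ha]⟩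
  have hfg1 : ((FA_S22_intCocycles M).map r).FG := by
    have h1 : (((FA_S22_intCocycles M).map r).comap cast).FG :=
      IsNoetherian.noetherian _
    have h2 := h1.map cast
    rwa [Submodule.map_comap_eq, inf_eq_right.mpr hle] at h2
  refine Submodule.fg_of_fg_map_of_fg_inf_ker r hfg1 ?_
  have hker : FA_S22_intCocycles M ⊓ LinearMap.ker r = ⊥ := by
    rw [eq_bot_iff]
    rintro c ⟨hc, hker⟩
    rw [SetLike.mem_coe, LinearMap.mem_ker] at hker
    rw [Submodule.mem_bot]
    refine FA_S22_cocycle_eq_zero_of_gen M hM1 (S : Set Γ) hS hc.1 fun s hs => ?_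
    exact congrFun hker ⟨s, hs⟩
  rw [hker]
  exact Submodule.fg_bot

/-- Applying a `ℚ`-linear functional coordinatewise to a cocycle gives a cocycle. -/
theorem FA_S22_cocycle_coord (φ : ℂ →ₗ[ℚ] ℚ) {c : Γ → Fin m → ℂ}
    (hc : c ∈ FA_S22_cocycles M) :
    (fun γ j => ((φ (c γ j) : ℚ) : ℂ)) ∈ FA_S22_cocycles M := by
  intro γ δ
  funext j
  have h := FA_S22_cocycle_apply M hc γ δ j
  simp only [Matrix.mulVec, dotProduct, Matrix.map_apply, Pi.add_apply]
  rw [h, map_add, map_sum]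
  push_cast
  congr 1
  refine Finset.sum_congr rfl fun k _ => ?_
  have : ((M δ j k : ℤ) : ℂ) * c γ k = ((M δ j k : ℤ) : ℚ) • c γ k := by
    rw [Rat.smul_def]; push_cast; rfl
  rw [this, map_smul]
  simp

/-- Every complex cocycle is a `ℂ`-linear combination of integral cocycles. -/
theorem FA_S22_cocycles_le_span [Group.FG Γ] (hM1 : M 1 = 1) :
    ∀ c ∈ FA_S22_cocycles M,
      c ∈ Submodule.span ℂ (FA_S22_intCocycles M : Set (Γ → Fin m → ℂ)) := by
  classical
  intro c hc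
  obtain ⟨S, hS⟩ := Group.FG.out (G := Γ)
  let b := Module.Basis.ofVectorSpace ℚ ℂ
  -- the coordinate cocycles
  let cl : Module.Basis.ofVectorSpaceIndex ℚ ℂ → Γ → Fin m → ℂ :=
    fun l γ j => ((b.coord l (c γ j) : ℚ) : ℂ)
  have hcl : ∀ l, cl l ∈ FA_S22_cocycles M := fun l => FA_S22_cocycle_coord M (b.coord l) hc
  -- the finite set of indices occurring on the generators
  let L : Finset (Module.Basis.ofVectorSpaceIndex ℚ ℂ) :=
    S.biUnion fun s => Finset.univ.biUnion fun j : Fin m => (b.repr (c s j)).support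
  have hL : ∀ l, l ∉ L → cl l = 0 := by
    intro l hl
    refine FA_S22_cocycle_eq_zero_of_gen M hM1 (S : Set Γ) hS (hcl l) fun s hs => ?_
    funext j
    have : l ∉ (b.repr (c s j)).support := by
      intro h
      exact hl (Finset.mem_biUnion.mpr ⟨s, hs, Finset.mem_biUnion.mpr ⟨j, Finset.mem_univ _, h⟩⟩)
    rw [Finsupp.notMem_support_iff] at this
    simp [cl, Module.Basis.coord_apply, this]
  -- `c = ∑_{l ∈ L} b l • cl l`
  have hsum : c = ∑ l ∈ L, (b l : ℂ) • cl l := by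
    funext γ j
    have h1 : (b.repr (c γ j)).support ⊆ L := by
      intro l hl
      by_contra hnl
      have h0 := congrFun (congrFun (hL l hnl) γ) j
      simp only [cl, Pi.zero_apply, Rat.cast_eq_zero, Module.Basis.coord_apply] at h0
      exact (Finsupp.mem_support_iff.mp hl) h0
    have h2 := b.linearCombination_repr (c γ j)
    rw [Finsupp.linearCombination_apply, Finsupp.sum_of_support_subset _ h1 _ (by simp)] at h2
    rw [Finset.sum_apply, Finset.sum_apply]
    conv_lhs => rw [← h2]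
    refine Finset.sum_congr rfl fun l _ => ?_
    simp only [cl, Pi.smul_apply, smul_eq_mul, Module.Basis.coord_apply]
    rw [Rat.smul_def, mul_comm]
  rw [hsum]
  refine Submodule.sum_mem _ fun l _ => Submodule.smul_mem _ _ ?_
  -- `cl l` is a rational cocycle: clear denominators
  let D : ℕ := ∏ s ∈ S, ∏ j : Fin m, (b.coord l (c s j)).den
  have hD0 : (D : ℂ) ≠ 0 := by
    have : D ≠ 0 := by
      simp only [D]
      exact Finset.prod_ne_zero_iff.mpr fun s _ =>
        Finset.prod_ne_zero_iff.mpr fun j _ => (b.coord l (c s j)).den_nz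
    exact_mod_cast this
  have hint : (D : ℂ) • cl l ∈ FA_S22_intCocycles M := by
    refine FA_S22_mem_intCocycles_of_gen M hM1 (S : Set Γ) hS
      (Submodule.smul_mem _ _ (hcl l)) fun s hs j => ?_
    have hdvd : (b.coord l (c s j)).den ∣ D :=
      (Finset.dvd_prod_of_mem _ (Finset.mem_univ j)).trans
        (Finset.dvd_prod_of_mem (fun s => ∏ j : Fin m, (b.coord l (c s j)).den) hs)
    obtain ⟨e, he⟩ := hdvd
    refine ⟨(b.coord l (c s j)).num * e, ?_⟩
    simp only [Pi.smul_apply, smul_eq_mul, cl]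
    have hq : ((b.coord l (c s j) : ℚ) : ℂ)
        = ((b.coord l (c s j)).num : ℂ) / ((b.coord l (c s j)).den : ℂ) := by
      conv_lhs => rw [← Rat.num_div_den (b.coord l (c s j))]
      push_cast; rfl
    have hden : ((b.coord l (c s j)).den : ℂ) ≠ 0 := by
      exact_mod_cast (b.coord l (c s j)).den_nz
    rw [hq, he]
    push_cast
    field_simp
  have : cl l = ((D : ℂ)⁻¹) • ((D : ℂ) • cl l) := by
    rw [smul_smul, inv_mul_cancel₀ hD0, one_smul]
  rw [this]
  exact Submodule.smul_mem _ _ (Submodule.subset_span hint)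

end Lattice

end FA_S22
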