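import Fermat.Agent.S22.Growth

/-!
# S22: injectivity of the Eichler–Shimura cocycle map
-/

set_option autoImplicit false

namespace FA_S22

open UpperHalfPlane Filter Topology Function Matrix.SpecialLinearGroup
open scoped ModularForm MatrixGroups Manifold

lemma FA_S22_diag_slash (n : ℕ) (E : ℍ → Fin (n + 1) → ℂ) (g : SL(2, ℤ)) :
    (FA_S22_diag n E) ∣[-(n : ℤ)] (mapGL ℝ g) = FA_S22_diag n (FA_S22_slashE n (mapGL ℝ g) E) := by
  funext τ
  have hdet : (0 : ℝ) < ((mapGL ℝ g).det.val) := by simp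
  have hσ : σ (mapGL ℝ g) = .refl ℝ ℂ := by rw [σ, if_pos hdet]
  rw [ModularForm.slash_apply, hσ, ContinuousAlgEquiv.refl_apply]
  have hd1 : ((mapGL ℝ g).det.val : ℝ) = 1 := by simp
  rw [hd1]
  simp only [abs_one, Complex.ofReal_one, one_zpow, mul_one, neg_neg, zpow_natCast]
  unfold FA_S22_diag FA_S22_slashE
  rw [FA_S22_ev_act n (mapGL ℝ g) (τ : ℂ) (denom_ne_zero _ τ), ← coe_smul_of_det_pos hdet τ]
  ring

end FA_S22

namespace FA_S22

open UpperHalfPlane Filter Topology Function Matrix.SpecialLinearGroup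
open scoped ModularForm MatrixGroups Manifold Pointwise

/-- a modular form of weight `≤ 0` on an arithmetic group is constant -/
lemma FA_S22_const_of_nonpos_weight {Γ : Subgroup (GL (Fin 2) ℝ)} [Γ.IsArithmetic]
    (k : ℤ) (hk : k ≤ 0) (F : ModularForm Γ k) (τ τ' : ℍ) : F τ = F τ' := by
  rcases lt_or_eq_of_le hk with h | h
  · rw [ModularForm.isZero_of_neg_weight h F]; rfl
  · subst h
    obtain ⟨c, hc⟩ := ModularForm.eq_const_of_weight_zero F
    rw [hc]; rfl

theorem FA_S22_inj (N : ℕ) [NeZero N] (n : ℕ)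
    (f : CuspForm (CongruenceSubgroup.Gamma0 N) ((n : ℤ) + 2))
    (E : ℍ → Fin (n + 1) → ℂ) (hE : FA_S22_IsEichler n f E)
    (hinv : ∀ γ ∈ CongruenceSubgroup.Gamma0 N, FA_S22_slashE n (mapGL ℝ γ) E = E) : f = 0 := by
  -- the slash-invariant form `G`
  let Gsif : SlashInvariantForm (CongruenceSubgroup.Gamma0 N : Subgroup (GL (Fin 2) ℝ)) (-(n : ℤ)) :=
    { toFun := FA_S22_diag n E
      slash_action_eq' := by
        intro γ hγ
        obtain ⟨g, hg, rfl⟩ := hγ
        rw [FA_S22_diag_slash, hinv g hg] }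
  -- boundedness of all translates
  have hbdd : ∀ g : SL(2, ℤ),
      IsBoundedAtImInfty ((FA_S22_diag n E) ∣[-(n : ℤ)] (mapGL ℝ g)) := by
    intro g
    have hEg := hE.slash (mapGL ℝ g) (by simp)
    have hfg : IsBoundedAtImInfty (⇑f ∣[(n : ℤ) + 2] (mapGL ℝ g)) :=
      ModularFormClass.bdd_at_infty_slash f g
    have harith : ((ConjAct.toConjAct (mapGL ℝ g : GL (Fin 2) ℝ)⁻¹) •
        (CongruenceSubgroup.Gamma0 N : Subgroup (GL (Fin 2) ℝ))).IsArithmetic := by
      simpa [(show Rat.castHom ℝ = algebraMap ℚ ℝ by rfl), map_inv, map_mapGL]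
        using! Subgroup.IsArithmetic.conj
          (CongruenceSubgroup.Gamma0 N : Subgroup (GL (Fin 2) ℝ)) (mapGL ℚ g)⁻¹
    let Gt := SlashInvariantForm.translate Gsif (mapGL ℝ g)
    have hper := SlashInvariantFormClass.periodic_comp_ofComplex Gt
      (Subgroup.strictWidthInfty_mem_strictPeriods _)
    have hpos := Subgroup.strictWidthInfty_pos
      ((ConjAct.toConjAct (mapGL ℝ g : GL (Fin 2) ℝ)⁻¹) •
        (CongruenceSubgroup.Gamma0 N : Subgroup (GL (Fin 2) ℝ)))
    have hcoe : (⇑Gt : ℍ → ℂ) = FA_S22_diag n (FA_S22_slashE n (mapGL ℝ g) E) := by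
      rw [SlashInvariantForm.coe_translate]
      exact FA_S22_diag_slash n E g
    rw [hcoe] at hper
    rw [FA_S22_diag_slash]
    exact FA_S22_isBoundedAtImInfty_diag hEg hfg hpos hper
  -- the modular form
  let Gmf : ModularForm (CongruenceSubgroup.Gamma0 N : Subgroup (GL (Fin 2) ℝ)) (-(n : ℤ)) :=
    { Gsif with
      holo' := FA_S22_mdifferentiable_ev hE
      bdd_at_cusps' := by
        intro c hc
        rw [Subgroup.IsArithmetic.isCusp_iff_isCusp_SL2Z] at hc
        rw [OnePoint.isBoundedAt_iff_forall_SL2Z hc]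
        intro γ _
        exact hbdd γ }
  have hconst : ∀ τ τ' : ℍ, FA_S22_ev n (τ : ℂ) (E τ) = FA_S22_ev n (τ' : ℂ) (E τ') :=
    fun τ τ' => FA_S22_const_of_nonpos_weight (-(n : ℤ)) (by simp) Gmf τ τ'
  have hzero := FA_S22_eq_zero_of_ev_const hE hconst
  ext τ
  exact hzero τ

end FA_S22
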