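import Fermat.Agent.S22.HeckeCocycle
import Fermat.Agent.S22.Lattice
import Fermat.Agent.S22.Inj
import Fermat.Prelude.Def_CuspForm_HeckeAlgebra

/-!
# S22 glue, part 1: the concrete group `Γ₀(N)`, its action on `V_n`, Hecke representatives
-/

set_option autoImplicit false

namespace FA_S22

open UpperHalfPlane Matrix.SpecialLinearGroup
open scoped ModularForm MatrixGroups Manifold

instance FA_S22_SL2Z_fg : Group.FG SL(2, ℤ) :=
  Group.fg_iff.mpr ⟨{ModularGroup.S, ModularGroup.T}, SpecialLinearGroup.SL2Z_generators,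
    Set.toFinite _⟩

instance FA_S22_Gamma0_fg (N : ℕ) [NeZero N] : Group.FG ↥(CongruenceSubgroup.Gamma0 N) :=
  Subgroup.fg_of_index_ne_zero _

/-- the inclusion `Γ₀(N) → GL₂(ℝ)` -/
noncomputable def FA_S22_phi (N : ℕ) : ↥(CongruenceSubgroup.Gamma0 N) →* GL (Fin 2) ℝ :=
  (mapGL ℝ).comp (Subgroup.subtype _)

lemma FA_S22_phi_apply (N : ℕ) (γ : ↥(CongruenceSubgroup.Gamma0 N)) :
    FA_S22_phi N γ = mapGL ℝ (γ : SL(2, ℤ)) := rfl

lemma FA_S22_phi_injective (N : ℕ) : Function.Injective (FA_S22_phi N) := by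
  intro a b h
  apply Subtype.ext
  exact mapGL_injective h

/-- the integral matrices of the action of `Γ₀(N)` on `V_n` -/
noncomputable def FA_S22_M (N n : ℕ) (γ : ↥(CongruenceSubgroup.Gamma0 N)) :
    Matrix (Fin (n + 1)) (Fin (n + 1)) ℤ :=
  FA_S22_symMat n ((γ : SL(2, ℤ)) : Matrix (Fin 2) (Fin 2) ℤ)

lemma FA_S22_M_one (N n : ℕ) : FA_S22_M N n 1 = 1 := by
  unfold FA_S22_M
  simp [FA_S22_symMat_one]

/-- a real matrix is integral -/
def FA_S22_IsIntMat (g : GL (Fin 2) ℝ) (A : Matrix (Fin 2) (Fin 2) ℤ) : Prop :=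
  ∀ i j, (g i j : ℝ) = (A i j : ℝ)

lemma FA_S22_cmat_of_isIntMat {g : GL (Fin 2) ℝ} {A : Matrix (Fin 2) (Fin 2) ℤ}
    (h : FA_S22_IsIntMat g A) : FA_S22_cmat g = A.map (Int.castRingHom ℂ) := by
  ext i j
  rw [FA_S22_cmat_apply, h i j]
  simp

lemma FA_S22_act_of_isIntMat (n : ℕ) {g : GL (Fin 2) ℝ} {A : Matrix (Fin 2) (Fin 2) ℤ}
    (h : FA_S22_IsIntMat g A) (v : Fin (n + 1) → ℂ) :
    FA_S22_act n g v = ((FA_S22_symMat n A).map (Int.cast : ℤ → ℂ)).mulVec v := by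
  rw [FA_S22_act_apply, FA_S22_cmat_of_isIntMat h, FA_S22_symMat_map]
  rfl

lemma FA_S22_isIntMat_mapGL (g : SL(2, ℤ)) :
    FA_S22_IsIntMat (mapGL ℝ g) (g : Matrix (Fin 2) (Fin 2) ℤ) := by
  intro i j
  simp

lemma FA_S22_act_phi (N n : ℕ) (γ : ↥(CongruenceSubgroup.Gamma0 N)) (v : Fin (n + 1) → ℂ) :
    FA_S22_act n (FA_S22_phi N γ) v = ((FA_S22_M N n γ).map (Int.cast : ℤ → ℂ)).mulVec v :=
  FA_S22_act_of_isIntMat n (FA_S22_isIntMat_mapGL _) v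

/-- the subgroup of integral vectors -/
def FA_S22_intVec (n : ℕ) : AddSubgroup (Fin (n + 1) → ℂ) where
  carrier := {v | ∀ j, ∃ a : ℤ, v j = (a : ℂ)}
  add_mem' := by
    intro v w hv hw j
    obtain ⟨a, ha⟩ := hv j
    obtain ⟨b, hb⟩ := hw j
    exact ⟨a + b, by simp [ha, hb]⟩
  zero_mem' := fun j => ⟨0, by simp⟩
  neg_mem' := by
    intro v hv j
    obtain ⟨a, ha⟩ := hv j
    exact ⟨-a, by simp [ha]⟩

lemma FA_S22_act_mem_intVec (n : ℕ) {g : GL (Fin 2) ℝ} {A : Matrix (Fin 2) (Fin 2) ℤ}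
    (h : FA_S22_IsIntMat g A) (v : Fin (n + 1) → ℂ) (hv : v ∈ FA_S22_intVec n) :
    FA_S22_act n g v ∈ FA_S22_intVec n := by
  intro j
  rw [FA_S22_act_of_isIntMat n h]
  choose a ha using hv
  refine ⟨∑ i, (FA_S22_symMat n A) j i * a i, ?_⟩
  simp only [Matrix.mulVec, dotProduct, Matrix.map_apply]
  push_cast
  refine Finset.sum_congr rfl fun i _ => ?_
  rw [ha i]

end FA_S22
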