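import Fermat.Agent.S22.Taylor

/-!
# S22: polynomial growth of the diagonal of an Eichler integral, and boundedness at `i∞`
-/

set_option autoImplicit false

namespace FA_S22

open UpperHalfPlane Filter Topology Function
open scoped ModularForm MatrixGroups Manifold

/-- `G_E(τ) = E(τ)(τ)` -/
noncomputable def FA_S22_diag (n : ℕ) (E : ℍ → Fin (n + 1) → ℂ) : ℍ → ℂ :=
  fun τ => FA_S22_ev n (τ : ℂ) (E τ)

lemma FA_S22_norm_pw_le (n : ℕ) (j : Fin (n + 1)) (w : ℂ) (B : ℝ) (hB : 1 ≤ B) (hw : ‖w‖ ≤ B) :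
    ‖FA_S22_pw n w j‖ ≤ 2 ^ n * B ^ n := by
  unfold FA_S22_pw
  rw [norm_mul, norm_pow, norm_neg, Complex.norm_natCast]
  have h1 : ((n.choose j : ℕ) : ℝ) ≤ 2 ^ n := by exact_mod_cast Nat.choose_le_two_pow n j
  have h2 : ‖w‖ ^ (n - j) ≤ B ^ n :=
    calc ‖w‖ ^ (n - j) ≤ B ^ (n - j) := pow_le_pow_left₀ (norm_nonneg _) hw _
      _ ≤ B ^ n := pow_le_pow_right₀ hB (Nat.sub_le _ _)
  exact mul_le_mul h1 h2 (by positivity) (by positivity)

/-- polynomial growth on a vertical strip -/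
lemma FA_S22_diag_bound_strip {n : ℕ} {f : ℍ → ℂ} {E : ℍ → Fin (n + 1) → ℂ}
    (hE : FA_S22_IsEichler n f E) {M A h : ℝ} (hA : 1 ≤ A) (hM : 0 ≤ M) (hh : 0 < h)
    (hf : ∀ z : ℍ, A ≤ z.im → ‖f z‖ ≤ M) :
    ∃ C : ℝ, 0 ≤ C ∧ ∀ τ : ℍ, A ≤ τ.im → |τ.re| ≤ h →
      ‖FA_S22_diag n E τ‖ ≤ C * (1 + h + τ.im) ^ (2 * n + 1) := by
  have hA0 : 0 < A := lt_of_lt_of_le one_pos hA
  let τ₀ : ℍ := ⟨A * Complex.I, by simpa using hA0⟩
  refine ⟨∑ j : Fin (n + 1), (‖E τ₀ j‖ + M * 2 ^ n), by positivity, ?_⟩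
  intro τ hτA hτh
  set y := τ.im with hy
  set B := 1 + h + y with hBdef
  have hB1 : 1 ≤ B := by
    have : 0 < y := τ.im_pos
    linarith
  -- the convex region
  let s : Set ℂ := {w : ℂ | A ≤ w.im ∧ w.im ≤ y ∧ -h ≤ w.re ∧ w.re ≤ h}
  have hs : Convex ℝ s := by
    have h1 : Convex ℝ {w : ℂ | A ≤ w.im} := convex_halfSpace_im_ge A
    have h2 : Convex ℝ {w : ℂ | w.im ≤ y} := convex_halfSpace_im_le y
    have h3 : Convex ℝ {w : ℂ | -h ≤ w.re} := convex_halfSpace_re_ge (-h)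
    have h4 : Convex ℝ {w : ℂ | w.re ≤ h} := convex_halfSpace_re_le h
    exact h1.inter (h2.inter (h3.inter h4))
  have hτ₀s : (τ₀ : ℂ) ∈ s := by
    refine ⟨?_, ?_, ?_, ?_⟩
    · simp [τ₀]
    · simpa [τ₀] using hτA
    · simp [τ₀]; exact hh.le
    · simp [τ₀]; exact hh.le
  have hτs : (τ : ℂ) ∈ s := by
    refine ⟨hτA, le_refl _, ?_, ?_⟩
    · exact (abs_le.mp hτh).1
    · exact (abs_le.mp hτh).2
  have hnorm_s : ∀ w ∈ s, ‖w‖ ≤ B := by
    intro w hw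
    obtain ⟨hw1, hw2, hw3, hw4⟩ := hw
    calc ‖w‖ ≤ |w.re| + |w.im| := Complex.norm_le_abs_re_add_abs_im w
      _ ≤ h + y := by
          apply add_le_add
          · exact abs_le.mpr ⟨hw3, hw4⟩
          · rw [abs_of_nonneg (by linarith)]; exact hw2
      _ ≤ B := by linarith
  have hstep : ∀ j : Fin (n + 1), ‖E τ j‖ ≤ (‖E τ₀ j‖ + M * 2 ^ n) * B ^ (n + 1) := by
    intro j
    have hderiv : ∀ w ∈ s, HasDerivWithinAt (fun w : ℂ => E (ofComplex w) j)
        (f (ofComplex w) * FA_S22_pw n w j) s w := by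
      intro w hw
      have hwpos : 0 < w.im := lt_of_lt_of_le hA0 hw.1
      have := hE ⟨w, hwpos⟩ j
      have e : ofComplex w = ⟨w, hwpos⟩ := ofComplex_apply_of_im_pos hwpos
      rw [e]
      exact this.hasDerivWithinAt
    have hbound : ∀ w ∈ s, ‖f (ofComplex w) * FA_S22_pw n w j‖ ≤ M * (2 ^ n * B ^ n) := by
      intro w hw
      have hwpos : 0 < w.im := lt_of_lt_of_le hA0 hw.1
      have e : ofComplex w = ⟨w, hwpos⟩ := ofComplex_apply_of_im_pos hwpos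
      rw [norm_mul]
      apply mul_le_mul _ (FA_S22_norm_pw_le n j w B hB1 (hnorm_s w hw)) (norm_nonneg _) hM
      apply hf
      rw [e]
      exact hw.1
    have hmv := Convex.norm_image_sub_le_of_norm_hasDerivWithin_le hderiv hbound hs hτ₀s hτs
    simp only [ofComplex_apply] at hmv
    have hdist : ‖(τ : ℂ) - (τ₀ : ℂ)‖ ≤ B := by
      calc ‖(τ : ℂ) - (τ₀ : ℂ)‖ ≤ |((τ : ℂ) - (τ₀ : ℂ)).re| + |((τ : ℂ) - (τ₀ : ℂ)).im| :=
            Complex.norm_le_abs_re_add_abs_im _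
        _ ≤ h + y := by
            apply add_le_add
            · have : ((τ : ℂ) - (τ₀ : ℂ)).re = τ.re := by simp [τ₀]
              rw [this]; exact hτh
            · have : ((τ : ℂ) - (τ₀ : ℂ)).im = y - A := by simp [τ₀, hy]
              rw [this, abs_of_nonneg (by linarith)]
              linarith
        _ ≤ B := by linarith
    have hBn : 0 ≤ B ^ n := by positivity
    have hBn1 : 1 ≤ B ^ (n + 1) := one_le_pow₀ hB1
    calc ‖E τ j‖ = ‖(E τ j - E τ₀ j) + E τ₀ j‖ := by ring_nf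
      _ ≤ ‖E τ j - E τ₀ j‖ + ‖E τ₀ j‖ := norm_add_le _ _
      _ ≤ M * (2 ^ n * B ^ n) * ‖(τ : ℂ) - (τ₀ : ℂ)‖ + ‖E τ₀ j‖ := by gcongr
      _ ≤ M * (2 ^ n * B ^ n) * B + ‖E τ₀ j‖ * B ^ (n + 1) := by
          apply add_le_add
          · exact mul_le_mul_of_nonneg_left hdist (by positivity)
          · exact le_mul_of_one_le_right (norm_nonneg _) hBn1
      _ = (‖E τ₀ j‖ + M * 2 ^ n) * B ^ (n + 1) := by ring
  have hτB : ‖(τ : ℂ)‖ ≤ B := hnorm_s _ hτs
  unfold FA_S22_diag FA_S22_ev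
  calc ‖∑ j : Fin (n + 1), E τ j * (τ : ℂ) ^ (j : ℕ)‖
      ≤ ∑ j : Fin (n + 1), ‖E τ j * (τ : ℂ) ^ (j : ℕ)‖ := norm_sum_le _ _
    _ ≤ ∑ j : Fin (n + 1), (‖E τ₀ j‖ + M * 2 ^ n) * B ^ (2 * n + 1) := by
        refine Finset.sum_le_sum fun j _ => ?_
        rw [norm_mul, norm_pow]
        have h1 : ‖(τ : ℂ)‖ ^ (j : ℕ) ≤ B ^ n :=
          calc ‖(τ : ℂ)‖ ^ (j : ℕ) ≤ B ^ (j : ℕ) := pow_le_pow_left₀ (norm_nonneg _) hτB _
            _ ≤ B ^ n := pow_le_pow_right₀ hB1 (Nat.lt_succ_iff.mp j.2)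
        calc ‖E τ j‖ * ‖(τ : ℂ)‖ ^ (j : ℕ)
            ≤ ((‖E τ₀ j‖ + M * 2 ^ n) * B ^ (n + 1)) * B ^ n :=
              mul_le_mul (hstep j) h1 (by positivity) (by positivity)
          _ = (‖E τ₀ j‖ + M * 2 ^ n) * B ^ (2 * n + 1) := by ring
    _ = (∑ j : Fin (n + 1), (‖E τ₀ j‖ + M * 2 ^ n)) * B ^ (2 * n + 1) := by
        rw [Finset.sum_mul]

/-- polynomial growth everywhere (using periodicity) -/
lemma FA_S22_diag_bound {n : ℕ} {f : ℍ → ℂ} {E : ℍ → Fin (n + 1) → ℂ}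
    (hE : FA_S22_IsEichler n f E) {M A h : ℝ} (hA : 1 ≤ A) (hM : 0 ≤ M) (hh : 0 < h)
    (hf : ∀ z : ℍ, A ≤ z.im → ‖f z‖ ≤ M)
    (hper : Periodic (FA_S22_diag n E ∘ ofComplex) (h : ℂ)) :
    ∃ C : ℝ, 0 ≤ C ∧ ∀ τ : ℍ, A ≤ τ.im →
      ‖FA_S22_diag n E τ‖ ≤ C * (1 + h + τ.im) ^ (2 * n + 1) := by
  obtain ⟨C, hC, hbd⟩ := FA_S22_diag_bound_strip hE hA hM hh hf
  refine ⟨C, hC, fun τ hτ => ?_⟩
  set m : ℤ := ⌊τ.re / h⌋ with hm
  have hw : 0 < ((τ : ℂ) - (m : ℂ) * (h : ℂ)).im := by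
    simp [τ.im_pos]
  let τ' : ℍ := ⟨(τ : ℂ) - (m : ℂ) * (h : ℂ), hw⟩
  have him : τ'.im = τ.im := by
    change ((τ : ℂ) - (m : ℂ) * (h : ℂ)).im = (τ : ℂ).im
    simp
  have hre : τ'.re = τ.re - m * h := by
    change ((τ : ℂ) - (m : ℂ) * (h : ℂ)).re = (τ : ℂ).re - m * h
    simp
  have h1 : (m : ℝ) ≤ τ.re / h := Int.floor_le _
  have h2 : τ.re / h < m + 1 := Int.lt_floor_add_one _
  have h1' : (m : ℝ) * h ≤ τ.re := by
    rwa [le_div_iff₀ hh] at h1
  have h2' : τ.re < (m + 1) * h := by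
    rwa [div_lt_iff₀ hh] at h2
  have habs : |τ'.re| ≤ h := by
    rw [hre, abs_le]
    constructor <;> nlinarith
  have hval : FA_S22_diag n E τ' = FA_S22_diag n E τ := by
    have := hper.sub_int_mul_eq (x := (τ : ℂ)) m
    simp only [Function.comp_apply, ofComplex_apply] at this
    rw [← this]
    congr 1
    exact (ofComplex_apply_of_im_pos hw).symm
  have := hbd τ' (by rw [him]; exact hτ) habs
  rw [hval, him] at this
  exact this

/-- **Boundedness at `i∞`**: the diagonal of an Eichler integral of a bounded function is bounded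
at `i∞` as soon as it is periodic. -/
theorem FA_S22_isBoundedAtImInfty_diag {n : ℕ} {f : ℍ → ℂ} {E : ℍ → Fin (n + 1) → ℂ}
    (hE : FA_S22_IsEichler n f E) (hf : IsBoundedAtImInfty f) {h : ℝ} (hh : 0 < h)
    (hper : Periodic (FA_S22_diag n E ∘ ofComplex) (h : ℂ)) :
    IsBoundedAtImInfty (FA_S22_diag n E) := by
  obtain ⟨M₀, A₀, hMA⟩ := isBoundedAtImInfty_iff.mp hf
  set A := max A₀ 1 with hAdef
  set M := max M₀ 0 with hMdef
  have hA : 1 ≤ A := le_max_right _ _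
  have hM : 0 ≤ M := le_max_right _ _
  have hf' : ∀ z : ℍ, A ≤ z.im → ‖f z‖ ≤ M := fun z hz =>
    (hMA z ((le_max_left _ _).trans hz)).trans (le_max_left _ _)
  obtain ⟨C, hC, hbd⟩ := FA_S22_diag_bound hE hA hM hh hf' hper
  -- the auxiliary function `F = q * G`
  let F : ℍ → ℂ := fun τ => Periodic.qParam h (τ : ℂ) * FA_S22_diag n E τ
  have hFnorm : ∀ τ : ℍ, ‖F τ‖ = Real.exp (-2 * Real.pi * τ.im / h) * ‖FA_S22_diag n E τ‖ := by
    intro τ
    simp only [F, norm_mul, Periodic.norm_qParam]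
    rfl
  -- `F` tends to zero
  have hreal : Tendsto (fun y : ℝ => C * 2 ^ (2 * n + 1) *
      (y ^ ((2 * n + 1 : ℕ) : ℝ) * Real.exp (-(2 * Real.pi / h) * y))) atTop (𝓝 0) := by
    have := (tendsto_rpow_mul_exp_neg_mul_atTop_nhds_zero ((2 * n + 1 : ℕ) : ℝ) (2 * Real.pi / h)
      (by positivity)).const_mul (C * 2 ^ (2 * n + 1))
    simpa using this
  have hFzero : IsZeroAtImInfty F := by
    rw [IsZeroAtImInfty, ZeroAtFilter]
    have hcomp : Tendsto (fun τ : ℍ => C * 2 ^ (2 * n + 1) *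
        (τ.im ^ ((2 * n + 1 : ℕ) : ℝ) * Real.exp (-(2 * Real.pi / h) * τ.im))) atImInfty (𝓝 0) :=
      hreal.comp tendsto_comap
    refine squeeze_zero_norm' ?_ hcomp
    rw [Filter.Eventually, atImInfty_mem]
    refine ⟨max A (1 + h), fun τ hτ => ?_⟩
    have hτA : A ≤ τ.im := (le_max_left _ _).trans hτ
    have hτh : 1 + h ≤ τ.im := (le_max_right _ _).trans hτ
    have hy0 : 0 < τ.im := τ.im_pos
    show ‖F τ‖ ≤ _
    rw [hFnorm]
    have h1 := hbd τ hτA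
    have h2 : (1 + h + τ.im) ^ (2 * n + 1) ≤ 2 ^ (2 * n + 1) * τ.im ^ (2 * n + 1) := by
      rw [← mul_pow]
      apply pow_le_pow_left₀ (by positivity)
      linarith
    have h3 : Real.exp (-2 * Real.pi * τ.im / h) = Real.exp (-(2 * Real.pi / h) * τ.im) := by
      congr 1; field_simp
    rw [h3, Real.rpow_natCast]
    calc Real.exp (-(2 * Real.pi / h) * τ.im) * ‖FA_S22_diag n E τ‖
        ≤ Real.exp (-(2 * Real.pi / h) * τ.im) * (C * (2 ^ (2 * n + 1) * τ.im ^ (2 * n + 1))) := by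
          apply mul_le_mul_of_nonneg_left _ (Real.exp_pos _).le
          exact h1.trans (mul_le_mul_of_nonneg_left h2 hC)
      _ = C * 2 ^ (2 * n + 1) * (τ.im ^ (2 * n + 1) * Real.exp (-(2 * Real.pi / h) * τ.im)) := by
          ring
  -- `F` is periodic and holomorphic
  have hFper : Periodic (F ∘ ofComplex) (h : ℂ) := by
    intro w
    by_cases hw : 0 < w.im
    · have hw' : 0 < (w + h).im := by simpa using hw
      have hd := hper w
      simp only [Function.comp_apply] at hd ⊢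
      simp only [F]
      rw [hd, ofComplex_apply_of_im_pos hw', ofComplex_apply_of_im_pos hw]
      congr 1
      show Periodic.qParam h (w + h) = Periodic.qParam h w
      simp only [Periodic.qParam]
      have hh0 : (h : ℂ) ≠ 0 := by exact_mod_cast hh.ne'
      rw [show 2 * (Real.pi : ℂ) * Complex.I * (w + (h : ℂ)) / (h : ℂ) =
        2 * (Real.pi : ℂ) * Complex.I * w / (h : ℂ) + 2 * (Real.pi : ℂ) * Complex.I by
          field_simp]
      exact Complex.exp_periodic _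
    · have hw0 : w.im ≤ 0 := not_lt.mp hw
      have hw' : (w + h).im ≤ 0 := by simpa using hw0
      simp only [Function.comp_apply]
      rw [ofComplex_apply_of_im_nonpos hw', ofComplex_apply_of_im_nonpos hw0]
  have hFhol : MDifferentiable 𝓘(ℂ) 𝓘(ℂ) F := by
    have h1 : MDifferentiable 𝓘(ℂ) 𝓘(ℂ) (fun τ : ℍ => Periodic.qParam h (τ : ℂ)) := by
      have := (Periodic.differentiable_qParam (h := h)).mdifferentiable
      exact this.comp mdifferentiable_coe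
    exact h1.mul (FA_S22_mdifferentiable_ev hE)
  have hdecay := UpperHalfPlane.IsZeroAtImInfty.exp_decay_atImInfty hFzero hh hFper hFhol
    hFzero.isBoundedAtImInfty
  -- conclude
  rw [Asymptotics.isBigO_iff] at hdecay
  obtain ⟨c, hc⟩ := hdecay
  rw [Filter.Eventually, atImInfty_mem] at hc
  obtain ⟨A₁, hA₁⟩ := hc
  rw [isBoundedAtImInfty_iff]
  refine ⟨c, A₁, fun τ hτ => ?_⟩
  have := hA₁ τ hτ
  simp only [Set.mem_ofPred_eq] at this
  rw [hFnorm, Real.norm_of_nonneg (Real.exp_pos _).le] at this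
  have hpos : 0 < Real.exp (-2 * Real.pi * τ.im / h) := Real.exp_pos _
  have h' : Real.exp (-2 * Real.pi * τ.im / h) * ‖FA_S22_diag n E τ‖ ≤
      Real.exp (-2 * Real.pi * τ.im / h) * c := by linarith
  exact le_of_mul_le_mul_left h' hpos

end FA_S22
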