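import Mathlib

/-!
# S22, D1: holomorphic functions on the upper half plane have primitives

`FA_S22_exists_primitive` : if `g` is holomorphic on `{z | 0 < z.im}` there is `F` with
`F' = g` on the upper half plane.  Proof: Morera on the increasing balls `ball (r I) r`.
-/

set_option autoImplicit false

open Complex Metric Set

namespace FA_S22

/-- The ball of centre `r I` and radius `r > 0`. -/
theorem FA_S22_mem_ball_iff {r : ℝ} (hr : 0 < r) (z : ℂ) :
    z ∈ ball ((r : ℂ) * I) r ↔ z.re ^ 2 + z.im ^ 2 < 2 * r * z.im := by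
  rw [mem_ball, Complex.dist_eq]
  have h1 : ‖z - (r : ℂ) * I‖ ^ 2 = z.re ^ 2 + (z.im - r) ^ 2 := by
    rw [Complex.sq_norm, Complex.normSq_apply]
    simp
    ring
  constructor
  · intro h
    have h2 : ‖z - (r : ℂ) * I‖ ^ 2 < r ^ 2 := by
      have h0 : 0 ≤ ‖z - (r : ℂ) * I‖ := norm_nonneg _
      nlinarith
    rw [h1] at h2
    nlinarith
  · intro h
    have h2 : ‖z - (r : ℂ) * I‖ ^ 2 < r ^ 2 := by
      rw [h1]; nlinarith
    have h0 : 0 ≤ ‖z - (r : ℂ) * I‖ := norm_nonneg _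
    by_contra hcon
    push Not at hcon
    nlinarith

theorem FA_S22_ball_subset_upper {r : ℝ} (hr : 0 < r) :
    ball ((r : ℂ) * I) r ⊆ {z : ℂ | 0 < z.im} := by
  intro z hz
  rw [FA_S22_mem_ball_iff hr] at hz
  show 0 < z.im
  by_contra hcon
  push Not at hcon
  nlinarith [sq_nonneg z.re, sq_nonneg z.im]

theorem FA_S22_ball_mono {r s : ℝ} (hr : 0 < r) (hrs : r ≤ s) :
    ball ((r : ℂ) * I) r ⊆ ball ((s : ℂ) * I) s := by
  intro z hz
  have hpos : 0 < z.im := FA_S22_ball_subset_upper hr hz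
  rw [FA_S22_mem_ball_iff hr] at hz
  rw [FA_S22_mem_ball_iff (lt_of_lt_of_le hr hrs)]
  nlinarith

theorem FA_S22_exists_ball {z : ℂ} (hz : 0 < z.im) :
    ∃ m : ℕ, z ∈ ball (((m + 1 : ℕ) : ℝ) * I) ((m + 1 : ℕ) : ℝ) := by
  obtain ⟨m, hm⟩ := exists_nat_gt ((z.re ^ 2 + z.im ^ 2) / (2 * z.im))
  refine ⟨m, ?_⟩
  have hpos : (0 : ℝ) < ((m + 1 : ℕ) : ℝ) := by positivity
  have := (FA_S22_mem_ball_iff hpos z).mpr ?_
  · simpa using this
  · rw [div_lt_iff₀ (by positivity)] at hm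
    push_cast
    nlinarith

theorem FA_S22_I_mem_ball (m : ℕ) : I ∈ ball (((m + 1 : ℕ) : ℝ) * I) ((m + 1 : ℕ) : ℝ) := by
  have hpos : (0 : ℝ) < ((m + 1 : ℕ) : ℝ) := by positivity
  have := (FA_S22_mem_ball_iff hpos I).mpr ?_
  · simpa using this
  · simp only [I_re, I_im]
    push_cast
    have : (0 : ℝ) ≤ m := Nat.cast_nonneg m
    nlinarith

/-- Holomorphic functions on the upper half plane have primitives. -/
theorem FA_S22_exists_primitive (g : ℂ → ℂ) (hg : DifferentiableOn ℂ g {z : ℂ | 0 < z.im}) :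
    ∃ F : ℂ → ℂ, ∀ z : ℂ, 0 < z.im → HasDerivAt F (g z) z := by
  classical
  set B : ℕ → Set ℂ := fun m => ball ((((m + 1 : ℕ) : ℝ) : ℂ) * I) ((m + 1 : ℕ) : ℝ) with hB
  have hrpos : ∀ m : ℕ, (0 : ℝ) < ((m + 1 : ℕ) : ℝ) := fun m => by positivity
  have hBsub : ∀ m, B m ⊆ {z : ℂ | 0 < z.im} := fun m => FA_S22_ball_subset_upper (hrpos m)
  have hBmono : ∀ m n, m ≤ n → B m ⊆ B n := fun m n hmn =>
    FA_S22_ball_mono (hrpos m) (by exact_mod_cast Nat.succ_le_succ hmn)
  have hI : ∀ m, I ∈ B m := fun m => by simpa [hB] using FA_S22_I_mem_ball m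
  have hex : ∀ m, ∃ F : ℂ → ℂ, F I = 0 ∧ ∀ z ∈ B m, HasDerivAt F (g z) z := fun m =>
    ((hg.mono (hBsub m)).isExactOn_ball).with_val_at I 0
  choose F hF0 hF using hex
  -- agreement on the smaller ball
  have hagree : ∀ m n, m ≤ n → EqOn (F m) (F n) (B m) := by
    intro m n hmn
    refine isOpen_ball.eqOn_of_deriv_eq (convex_ball _ _).isPreconnected
      (fun z hz => (hF m z hz).differentiableAt.differentiableWithinAt)
      (fun z hz => (hF n z (hBmono m n hmn hz)).differentiableAt.differentiableWithinAt)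
      (fun z hz => ?_) (hI m) ?_
    · rw [(hF m z hz).deriv, (hF n z (hBmono m n hmn hz)).deriv]
    · rw [hF0, hF0]
  have hagree' : ∀ m n, ∀ z, z ∈ B m → z ∈ B n → F m z = F n z := by
    intro m n z hm hn
    rcases le_total m n with h | h
    · exact hagree m n h hm
    · exact (hagree n m h hn).symm
  -- the index function
  have hidx : ∀ z : ℂ, ∃ m, 0 < z.im → z ∈ B m := by
    intro z
    by_cases hz : 0 < z.im
    · obtain ⟨m, hm⟩ := FA_S22_exists_ball hz
      exact ⟨m, fun _ => by simpa [hB] using hm⟩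
    · exact ⟨0, fun h => absurd h hz⟩
  choose idx hidx' using hidx
  refine ⟨fun z => F (idx z) z, fun z hz => ?_⟩
  have hzB := hidx' z hz
  refine (hF (idx z) z hzB).congr_of_eventuallyEq ?_
  have hnhds : B (idx z) ∈ nhds z := isOpen_ball.mem_nhds hzB
  filter_upwards [hnhds] with w hw
  exact hagree' (idx w) (idx z) w (hidx' w (hBsub _ hw)) hw

end FA_S22
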