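import Mathlib

/-!
# S22, abstract part: finiteness of an adjoined algebra of operators from a stable lattice

`FA_S22_finite_adjoin`: operators `TV i` on `V`, operators `TH i` on `H`, a finitely generated
`ℤ`-submodule `Λ ≤ H` stable under the `TH i`, and an additive correspondence `R ≤ V × H`, stable
under `(TV i, TH i)`, whose second components lie in the `ℂ`-span of `Λ`, which is onto `V` and
"injective" (`(v, 0) ∈ R → v = 0`).  Then `Algebra.adjoin ℤ (range TV)` is a finite `ℤ`-module.
-/

set_option autoImplicit false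

namespace FA_S22

open scoped Classical in
theorem FA_S22_finite_end_of_fg {Λ : Type*} [AddCommGroup Λ] (hfg : Module.Finite ℤ Λ) :
    Module.Finite ℤ (Module.End ℤ Λ) := by
  obtain ⟨s, hs⟩ := hfg.fg_top
  -- evaluation at generators is injective
  let ev : Module.End ℤ Λ →ₗ[ℤ] (s → Λ) :=
    { toFun := fun φ x => φ x.1
      map_add' := fun φ ψ => by ext x; rfl
      map_smul' := fun c φ => by ext x; rfl }
  have hinj : Function.Injective ev := by
    intro φ ψ h
    apply LinearMap.ext_on_range (v := fun x : s => (x : Λ))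
    · have : (Set.range fun x : s => (x : Λ)) = (s : Set Λ) := Subtype.range_coe
      rw [this]; exact hs
    · intro x
      exact congrFun h x
  exact Module.Finite.of_injective ev hinj

variable {ι V H : Type*} [AddCommGroup V] [Module ℂ V] [AddCommGroup H] [Module ℂ H]

theorem FA_S22_finite_adjoin
    (TV : ι → Module.End ℂ V) (TH : ι → Module.End ℂ H)
    (Λ : Submodule ℤ H) (hfg : Λ.FG)
    (hΛ : ∀ i, ∀ x ∈ Λ, TH i x ∈ Λ)
    (R : AddSubgroup (V × H))
    (hR : ∀ i, ∀ p ∈ R, (TV i p.1, TH i p.2) ∈ R)
    (hspan : ∀ p ∈ R, p.2 ∈ Submodule.span ℂ (Λ : Set H))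
    (hsurj : ∀ v, ∃ h, (v, h) ∈ R)
    (hinj : ∀ v, (v, (0 : H)) ∈ R → v = 0) :
    Module.Finite ℤ (Algebra.adjoin ℤ (Set.range TV)) := by
  classical
  -- the three representations of the free algebra
  let ρV : FreeAlgebra ℤ ι →ₐ[ℤ] Module.End ℂ V := FreeAlgebra.lift ℤ TV
  let ρH : FreeAlgebra ℤ ι →ₐ[ℤ] Module.End ℂ H := FreeAlgebra.lift ℤ TH
  let TΛ : ι → Module.End ℤ Λ := fun i =>
    ((TH i).restrictScalars ℤ).restrict (p := Λ) (q := Λ) (fun x hx => hΛ i x hx)
  let ρΛ : FreeAlgebra ℤ ι →ₐ[ℤ] Module.End ℤ Λ := FreeAlgebra.lift ℤ TΛ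
  have hρΛ : ∀ a : FreeAlgebra ℤ ι, ∀ x : Λ, ((ρΛ a x : Λ) : H) = ρH a (x : H) := by
    intro a
    induction a using FreeAlgebra.induction with
    | grade0 r =>
      intro x
      simp only [AlgHom.commutes, Module.algebraMap_end_apply]
      rw [Submodule.coe_smul]
    | grade1 i =>
      intro x
      simp only [ρΛ, ρH, FreeAlgebra.lift_ι_apply, TΛ]
      rfl
    | mul a b ha hb =>
      intro x
      simp only [map_mul, Module.End.mul_apply]
      rw [ha, hb]
    | add a b ha hb =>
      intro x
      simp only [map_add, LinearMap.add_apply, Submodule.coe_add]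
      rw [ha, hb]
  have hρR : ∀ a : FreeAlgebra ℤ ι, ∀ p ∈ R, (ρV a p.1, ρH a p.2) ∈ R := by
    intro a
    induction a using FreeAlgebra.induction with
    | grade0 r =>
      intro p hp
      simp only [AlgHom.commutes, Module.algebraMap_end_apply]
      have := R.zsmul_mem hp r
      exact this
    | grade1 i =>
      intro p hp
      simp only [ρV, ρH, FreeAlgebra.lift_ι_apply]
      exact hR i p hp
    | mul a b ha hb =>
      intro p hp
      simp only [map_mul, Module.End.mul_apply]
      exact ha _ (hb p hp)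
    | add a b ha hb =>
      intro p hp
      simp only [map_add, LinearMap.add_apply]
      have := R.add_mem (ha p hp) (hb p hp)
      simpa using this
  -- kernel inclusion
  have hker : LinearMap.ker ρΛ.toLinearMap ≤ LinearMap.ker ρV.toLinearMap := by
    intro a ha
    rw [LinearMap.mem_ker] at ha ⊢
    have ha' : ρΛ a = 0 := ha
    have hH : ∀ h ∈ Submodule.span ℂ (Λ : Set H), ρH a h = 0 := by
      intro h hh
      induction hh using Submodule.span_induction with
      | mem x hx =>
        have := hρΛ a ⟨x, hx⟩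
        rw [ha'] at this
        simpa using this.symm
      | zero => simp
      | add x y _ _ hx hy => rw [map_add, hx, hy, add_zero]
      | smul c x _ hx => rw [map_smul, hx, smul_zero]
    show ρV a = 0
    ext v
    obtain ⟨h, hvh⟩ := hsurj v
    have h1 := hρR a (v, h) hvh
    simp only at h1
    rw [hH h (hspan _ hvh)] at h1
    simpa using hinj _ h1
  -- finiteness
  have hfinΛ : Module.Finite ℤ Λ := Module.Finite.iff_fg.mpr hfg
  have hfinEnd : Module.Finite ℤ (Module.End ℤ Λ) := FA_S22_finite_end_of_fg hfinΛ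
  have hfinRange : Module.Finite ℤ (LinearMap.range ρΛ.toLinearMap) := inferInstance
  have hfinQuot : Module.Finite ℤ (FreeAlgebra ℤ ι ⧸ LinearMap.ker ρΛ.toLinearMap) :=
    Module.Finite.equiv (LinearMap.quotKerEquivRange ρΛ.toLinearMap).symm
  let ψ : (FreeAlgebra ℤ ι ⧸ LinearMap.ker ρΛ.toLinearMap) →ₗ[ℤ] Module.End ℂ V :=
    (LinearMap.ker ρΛ.toLinearMap).liftQ ρV.toLinearMap hker
  have hψ : LinearMap.range ψ = LinearMap.range ρV.toLinearMap := Submodule.range_liftQ _ _ _
  have hfg2 : (LinearMap.range ρV.toLinearMap).FG := by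
    rw [← hψ]
    exact Module.Finite.iff_fg.mp (Module.Finite.range ψ)
  have hadj : Subalgebra.toSubmodule (Algebra.adjoin ℤ (Set.range TV)) =
      LinearMap.range ρV.toLinearMap := by
    rw [Algebra.adjoin_range_eq_range_freeAlgebra_lift]
    rfl
  have : (Subalgebra.toSubmodule (Algebra.adjoin ℤ (Set.range TV))).FG := by
    rw [hadj]; exact hfg2
  exact Module.Finite.iff_fg.mpr this

end FA_S22
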