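import Fermat.Agent.S22.Sym

/-!
# S22: Eichler integrals (vector valued primitives) and their transformation law
-/

set_option autoImplicit false

namespace FA_S22

open UpperHalfPlane
open scoped ModularForm MatrixGroups

/-- the complexified matrix of `g` -/
noncomputable def FA_S22_cmat (g : GL (Fin 2) ℝ) : Matrix (Fin 2) (Fin 2) ℂ :=
  (g : Matrix (Fin 2) (Fin 2) ℝ).map (algebraMap ℝ ℂ)

lemma FA_S22_cmat_apply (g : GL (Fin 2) ℝ) (i j : Fin 2) :
    FA_S22_cmat g i j = ((g i j : ℝ) : ℂ) := rfl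

lemma FA_S22_cmat_mul (g h : GL (Fin 2) ℝ) :
    FA_S22_cmat (g * h) = FA_S22_cmat g * FA_S22_cmat h := by
  unfold FA_S22_cmat
  rw [Units.val_mul, Matrix.map_mul]

lemma FA_S22_cmat_one : FA_S22_cmat 1 = 1 := by
  unfold FA_S22_cmat
  rw [Units.val_one, Matrix.map_one] <;> simp

lemma FA_S22_cmat_row_ne (h : GL (Fin 2) ℝ) :
    FA_S22_cmat h 1 0 ≠ 0 ∨ FA_S22_cmat h 1 1 ≠ 0 := by
  by_contra hcon
  push Not at hcon
  obtain ⟨h0, h1⟩ := hcon
  rw [FA_S22_cmat_apply] at h0 h1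
  have h0' : (h 1 0 : ℝ) = 0 := by exact_mod_cast h0
  have h1' : (h 1 1 : ℝ) = 0 := by exact_mod_cast h1
  have hdet : (h : Matrix (Fin 2) (Fin 2) ℝ).det ≠ 0 := by
    have := h.det_ne_zero
    simpa using this
  apply hdet
  rw [Matrix.det_fin_two, h0', h1']
  ring

/-- the right action of `GL₂(ℝ)` on `V_n(ℂ)` -/
noncomputable def FA_S22_act (n : ℕ) (g : GL (Fin 2) ℝ) :
    (Fin (n + 1) → ℂ) →ₗ[ℂ] (Fin (n + 1) → ℂ) :=
  Matrix.mulVecLin (FA_S22_symMat n (FA_S22_cmat g))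

lemma FA_S22_act_apply (n : ℕ) (g : GL (Fin 2) ℝ) (v : Fin (n + 1) → ℂ) :
    FA_S22_act n g v = (FA_S22_symMat n (FA_S22_cmat g)).mulVec v := rfl

lemma FA_S22_act_one (n : ℕ) (v : Fin (n + 1) → ℂ) : FA_S22_act n 1 v = v := by
  rw [FA_S22_act_apply, FA_S22_cmat_one, FA_S22_symMat_one, Matrix.one_mulVec]

lemma FA_S22_act_mul (n : ℕ) (g h : GL (Fin 2) ℝ) (v : Fin (n + 1) → ℂ) :
    FA_S22_act n (g * h) v = FA_S22_act n h (FA_S22_act n g v) := by
  rw [FA_S22_act_apply, FA_S22_act_apply, FA_S22_act_apply, FA_S22_cmat_mul,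
    FA_S22_symMat_mul n _ _ (FA_S22_cmat_row_ne h), Matrix.mulVec_mulVec]

lemma FA_S22_ev_act (n : ℕ) (g : GL (Fin 2) ℝ) (z : ℂ) (hz : denom g z ≠ 0)
    (v : Fin (n + 1) → ℂ) :
    FA_S22_ev n z (FA_S22_act n g v) = denom g z ^ n * FA_S22_ev n (num g z / denom g z) v := by
  rw [FA_S22_act_apply]
  exact FA_S22_ev_symMat_of_ne n (FA_S22_cmat g) z hz v

/-- coefficient vector of `(X - z)^n` -/
def FA_S22_pw (n : ℕ) (z : ℂ) : Fin (n + 1) → ℂ := fun j => (n.choose j : ℂ) * (-z) ^ (n - j)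

lemma FA_S22_ev_pw (n : ℕ) (x z : ℂ) : FA_S22_ev n x (FA_S22_pw n z) = (x - z) ^ n := by
  unfold FA_S22_ev FA_S22_pw
  rw [sub_eq_add_neg, add_pow, ← Fin.sum_univ_eq_sum_range
    (fun m => x ^ m * (-z) ^ (n - m) * (n.choose m : ℂ))]
  refine Finset.sum_congr rfl fun j _ => ?_
  ring

lemma FA_S22_act_pw (n : ℕ) (g : GL (Fin 2) ℝ) (z : ℂ) (hz : denom g z ≠ 0) :
    FA_S22_act n g (FA_S22_pw n (num g z / denom g z)) =
      (((g.det.val : ℝ) : ℂ) / denom g z) ^ n • FA_S22_pw n z := by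
  apply FA_S22_ev_injective n Set.univ Set.infinite_univ
  intro x _
  rw [FA_S22_ev_smul, FA_S22_ev_pw, FA_S22_act_apply, FA_S22_ev_symMat]
  have : ∀ j : Fin (n + 1), FA_S22_pw n (num g z / denom g z) j *
      ((FA_S22_cmat g 0 0 * x + FA_S22_cmat g 0 1) ^ (j : ℕ) *
        (FA_S22_cmat g 1 0 * x + FA_S22_cmat g 1 1) ^ (n - j)) =
      (FA_S22_cmat g 0 0 * x + FA_S22_cmat g 0 1) ^ (j : ℕ) *
        (-(num g z / denom g z) * (FA_S22_cmat g 1 0 * x + FA_S22_cmat g 1 1)) ^ (n - j) *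
        (n.choose j : ℂ) := by
    intro j
    unfold FA_S22_pw
    rw [mul_pow]
    ring
  simp_rw [this]
  rw [Fin.sum_univ_eq_sum_range (fun m => (FA_S22_cmat g 0 0 * x + FA_S22_cmat g 0 1) ^ m *
        (-(num g z / denom g z) * (FA_S22_cmat g 1 0 * x + FA_S22_cmat g 1 1)) ^ (n - m) *
        (n.choose m : ℂ)), ← add_pow, ← mul_pow]
  congr 1
  have hdet : ((g.det.val : ℝ) : ℂ) =
      FA_S22_cmat g 0 0 * FA_S22_cmat g 1 1 - FA_S22_cmat g 0 1 * FA_S22_cmat g 1 0 := by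
    rw [Matrix.GeneralLinearGroup.val_det_apply, Matrix.det_fin_two]
    simp only [FA_S22_cmat_apply]
    push_cast
    ring
  rw [hdet]
  have key : ∀ (A B C Dd x z D : ℂ), D ≠ 0 → D = C * z + Dd →
      A * x + B + -((A * z + B) / D) * (C * x + Dd) = (A * Dd - B * C) / D * (x - z) := by
    intro A B C Dd x z D hD hDdef
    field_simp
    rw [hDdef]; ring
  exact key _ _ _ _ x z (denom g z) hz rfl

/-- `E` is a (vector valued) primitive of `f(z) (X - z)^n` -/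
def FA_S22_IsEichler (n : ℕ) (f : ℍ → ℂ) (E : ℍ → Fin (n + 1) → ℂ) : Prop :=
  ∀ (τ : ℍ) (j : Fin (n + 1)),
    HasDerivAt (fun w : ℂ => E (ofComplex w) j) (f τ * FA_S22_pw n τ j) (τ : ℂ)

/-- `(E|g)(τ) = (E (g τ))|g` -/
noncomputable def FA_S22_slashE (n : ℕ) (g : GL (Fin 2) ℝ) (E : ℍ → Fin (n + 1) → ℂ) :
    ℍ → Fin (n + 1) → ℂ :=
  fun τ => FA_S22_act n g (E (g • τ))

lemma FA_S22_slashE_one (n : ℕ) (E : ℍ → Fin (n + 1) → ℂ) : FA_S22_slashE n 1 E = E := by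
  funext τ
  simp [FA_S22_slashE, FA_S22_act_one]

lemma FA_S22_slashE_mul (n : ℕ) (g h : GL (Fin 2) ℝ) (E : ℍ → Fin (n + 1) → ℂ) :
    FA_S22_slashE n (g * h) E = FA_S22_slashE n h (FA_S22_slashE n g E) := by
  funext τ
  simp only [FA_S22_slashE, FA_S22_act_mul, mul_smul]

lemma FA_S22_slashE_add (n : ℕ) (g : GL (Fin 2) ℝ) (E E' : ℍ → Fin (n + 1) → ℂ) :
    FA_S22_slashE n g (E + E') = FA_S22_slashE n g E + FA_S22_slashE n g E' := by
  funext τ
  simp [FA_S22_slashE]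

lemma FA_S22_slashE_const (n : ℕ) (g : GL (Fin 2) ℝ) (v : Fin (n + 1) → ℂ) :
    FA_S22_slashE n g (fun _ => v) = fun _ => FA_S22_act n g v := rfl

theorem FA_S22_IsEichler.add {n : ℕ} {f f' : ℍ → ℂ} {E E' : ℍ → Fin (n + 1) → ℂ}
    (hE : FA_S22_IsEichler n f E) (hE' : FA_S22_IsEichler n f' E') :
    FA_S22_IsEichler n (f + f') (E + E') := by
  intro τ j
  have := (hE τ j).add (hE' τ j)
  simp only [Pi.add_apply, add_mul]
  exact this

theorem FA_S22_IsEichler.neg {n : ℕ} {f : ℍ → ℂ} {E : ℍ → Fin (n + 1) → ℂ}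
    (hE : FA_S22_IsEichler n f E) : FA_S22_IsEichler n (-f) (-E) := by
  intro τ j
  have := (hE τ j).neg
  simp only [Pi.neg_apply, neg_mul]
  exact this

theorem FA_S22_IsEichler.sub {n : ℕ} {f f' : ℍ → ℂ} {E E' : ℍ → Fin (n + 1) → ℂ}
    (hE : FA_S22_IsEichler n f E) (hE' : FA_S22_IsEichler n f' E') :
    FA_S22_IsEichler n (f - f') (E - E') := by
  intro τ j
  have := (hE τ j).sub (hE' τ j)
  simp only [Pi.sub_apply, sub_mul]
  exact this

theorem FA_S22_IsEichler.zero (n : ℕ) : FA_S22_IsEichler n 0 (0 : ℍ → Fin (n + 1) → ℂ) := by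
  intro τ j
  simpa using hasDerivAt_const (τ : ℂ) (0 : ℂ)

theorem FA_S22_IsEichler.sum {n : ℕ} {ι : Type*} (s : Finset ι) {f : ι → ℍ → ℂ}
    {E : ι → ℍ → Fin (n + 1) → ℂ} (hE : ∀ i ∈ s, FA_S22_IsEichler n (f i) (E i)) :
    FA_S22_IsEichler n (∑ i ∈ s, f i) (∑ i ∈ s, E i) := by
  classical
  induction s using Finset.induction_on with
  | empty => simpa using FA_S22_IsEichler.zero n
  | insert a s ha ih =>
    rw [Finset.sum_insert ha, Finset.sum_insert ha]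
    exact (hE a (Finset.mem_insert_self a s)).add
      (ih fun i hi => hE i (Finset.mem_insert_of_mem hi))

/-- chain rule: the transformation law of Eichler integrals -/
theorem FA_S22_IsEichler.slash {n : ℕ} {f : ℍ → ℂ} {E : ℍ → Fin (n + 1) → ℂ}
    (hE : FA_S22_IsEichler n f E) (g : GL (Fin 2) ℝ) (hg : 0 < g.det.val) :
    FA_S22_IsEichler n (f ∣[(n : ℤ) + 2] g) (FA_S22_slashE n g E) := by
  intro τ i
  -- derivative of each component of `E (g • ·)`
  have hcomp : ∀ j : Fin (n + 1), HasDerivAt (fun w : ℂ => E (g • ofComplex w) j)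
      (f (g • τ) * FA_S22_pw n ((g • τ : ℍ) : ℂ) j *
        (((g.det.val : ℝ) : ℂ) / denom g τ ^ 2)) (τ : ℂ) := by
    intro j
    have h1 := (hasStrictDerivAt_smul hg τ).hasDerivAt
    have h2 := hE (g • τ) j
    have h2' : HasDerivAt (fun w : ℂ => E (ofComplex w) j)
        (f (g • τ) * FA_S22_pw n ((g • τ : ℍ) : ℂ) j) (((g • ofComplex (τ : ℂ) : ℍ)) : ℂ) := by
      rw [ofComplex_apply]; exact h2
    have := HasDerivAt.comp (τ : ℂ) h2' h1
    refine this.congr_of_eventuallyEq ?_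
    filter_upwards with w
    simp [Function.comp]
  have hsum : HasDerivAt (fun w : ℂ => FA_S22_slashE n g E (ofComplex w) i)
      (∑ j : Fin (n + 1), FA_S22_symMat n (FA_S22_cmat g) i j *
        (f (g • τ) * FA_S22_pw n ((g • τ : ℍ) : ℂ) j *
        (((g.det.val : ℝ) : ℂ) / denom g τ ^ 2))) (τ : ℂ) := by
    have := HasDerivAt.fun_sum (u := Finset.univ)
      (A := fun (j : Fin (n + 1)) (w : ℂ) =>
        FA_S22_symMat n (FA_S22_cmat g) i j * E (g • ofComplex w) j)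
      (A' := fun j => FA_S22_symMat n (FA_S22_cmat g) i j *
        (f (g • τ) * FA_S22_pw n ((g • τ : ℍ) : ℂ) j *
        (((g.det.val : ℝ) : ℂ) / denom g τ ^ 2))) (x := (τ : ℂ))
      (fun j _ => (hcomp j).const_mul _)
    refine this.congr_of_eventuallyEq ?_
    filter_upwards with w
    simp [FA_S22_slashE, FA_S22_act_apply, Matrix.mulVec, dotProduct]
  convert hsum using 1
  -- compare the derivative values
  have hden : denom g τ ≠ 0 := denom_ne_zero g τ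
  have hpw := congrFun (FA_S22_act_pw n g (τ : ℂ) hden) i
  rw [← coe_smul_of_det_pos hg τ] at hpw
  rw [FA_S22_act_apply] at hpw
  simp only [Matrix.mulVec, dotProduct, Pi.smul_apply, smul_eq_mul] at hpw
  have e1 : ∑ j : Fin (n + 1), FA_S22_symMat n (FA_S22_cmat g) i j *
        (f (g • τ) * FA_S22_pw n ((g • τ : ℍ) : ℂ) j *
        (((g.det.val : ℝ) : ℂ) / denom g τ ^ 2)) =
      f (g • τ) * (((g.det.val : ℝ) : ℂ) / denom g τ ^ 2) *
        ∑ j : Fin (n + 1), FA_S22_symMat n (FA_S22_cmat g) i j *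
          FA_S22_pw n ((g • τ : ℍ) : ℂ) j := by
    rw [Finset.mul_sum]
    refine Finset.sum_congr rfl fun j _ => ?_
    ring
  rw [e1, hpw, ModularForm.slash_apply]
  have hσ : σ g = .refl ℝ ℂ := by rw [σ, if_pos hg]
  rw [hσ, ContinuousAlgEquiv.refl_apply, abs_of_pos hg]
  have hk1 : ((n : ℤ) + 2 - 1) = ((n + 1 : ℕ) : ℤ) := by push_cast; ring
  have hk2 : -((n : ℤ) + 2) = -((n + 2 : ℕ) : ℤ) := by push_cast; ring
  rw [hk1, hk2, zpow_natCast, zpow_neg, zpow_natCast]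
  have hdet0 : ((g.det.val : ℝ) : ℂ) ≠ 0 := by exact_mod_cast hg.ne'
  have key2 : ∀ (F d D P : ℂ), d ≠ 0 → D ≠ 0 →
      F * (d / D ^ 2) * ((d / D) ^ n * P) = F * d ^ (n + 1) * (D ^ (n + 2))⁻¹ * P := by
    intro F d D P hd hD
    rw [div_pow]
    field_simp
    ring
  exact (key2 _ _ _ _ hdet0 hden).symm

/-- an Eichler integral of `0` is constant -/
theorem FA_S22_IsEichler.const_of_zero {n : ℕ} {E : ℍ → Fin (n + 1) → ℂ}
    (hE : FA_S22_IsEichler n 0 E) (τ τ' : ℍ) : E τ = E τ' := by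
  funext j
  have hopen : IsOpen {z : ℂ | 0 < z.im} := isOpen_upperHalfPlaneSet
  have hconn : IsPreconnected {z : ℂ | 0 < z.im} := (convex_halfSpace_im_gt 0).isPreconnected
  have hd : ∀ z ∈ {z : ℂ | 0 < z.im}, HasDerivAt (fun w : ℂ => E (ofComplex w) j) 0 z := by
    intro z hz
    have := hE ⟨z, hz⟩ j
    simpa using this
  have hdiff : DifferentiableOn ℂ (fun w : ℂ => E (ofComplex w) j) {z : ℂ | 0 < z.im} :=
    fun z hz => (hd z hz).differentiableAt.differentiableWithinAt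
  have hderiv : Set.EqOn (deriv (fun w : ℂ => E (ofComplex w) j)) 0 {z : ℂ | 0 < z.im} :=
    fun z hz => (hd z hz).deriv
  have := hopen.is_const_of_deriv_eq_zero hconn hdiff hderiv τ.im_pos τ'.im_pos
  simpa using this

end FA_S22
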