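import Fermat.Agent.S22.GlueBase

/-!
# S22 glue, part 2: the Hecke coset representatives satisfy the hypotheses of `HeckeCocycle`
-/

set_option autoImplicit false

namespace FA_S22

open UpperHalfPlane Matrix.SpecialLinearGroup
open P2MW.S_ModularForm_heckeT_slash_eq_self_of_mem_Gamma0.ModularForm.HeckeSlashInvariance
open scoped ModularForm MatrixGroups Manifold

lemma FA_S22_isIntMat_heckeMatrix {p : ℕ} (hp : p ≠ 0) (j : ℕ) :
    FA_S22_IsIntMat (ModularForm.heckeMatrix p j) !![1, (j : ℤ); 0, (p : ℤ)] := by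
  intro a b
  rw [ModularForm.val_heckeMatrix hp]
  fin_cases a <;> fin_cases b <;> simp

lemma FA_S22_isIntMat_heckeDiagMatrix {p : ℕ} (hp : p ≠ 0) :
    FA_S22_IsIntMat (ModularForm.heckeDiagMatrix p) !![(p : ℤ), 0; 0, 1] := by
  intro a b
  rw [ModularForm.val_heckeDiagMatrix hp]
  fin_cases a <;> fin_cases b <;> simp

lemma FA_S22_intMat_eq_of_eq {g h : GL (Fin 2) ℝ} {γ : SL(2, ℤ)}
    {A B : Matrix (Fin 2) (Fin 2) ℤ} (hg : FA_S22_IsIntMat g A) (hh : FA_S22_IsIntMat h B)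
    (e : g = mapGL ℝ γ * h) : A = (γ : Matrix (Fin 2) (Fin 2) ℤ) * B := by
  ext i j
  have h1 := congrArg (fun m : GL (Fin 2) ℝ => (m : Matrix (Fin 2) (Fin 2) ℝ) i j) e
  simp only [Units.val_mul, Matrix.mul_apply, Fin.sum_univ_two] at h1
  rw [hg i j, hh 0 j, hh 1 j] at h1
  have e0 : ((mapGL ℝ γ : GL (Fin 2) ℝ) : Matrix (Fin 2) (Fin 2) ℝ) i 0 = ((γ i 0 : ℤ) : ℝ) := by
    simp
  have e1 : ((mapGL ℝ γ : GL (Fin 2) ℝ) : Matrix (Fin 2) (Fin 2) ℝ) i 1 = ((γ i 1 : ℤ) : ℝ) := by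
    simp
  rw [e0, e1] at h1
  rw [Matrix.mul_apply, Fin.sum_univ_two]
  exact_mod_cast h1

lemma FA_S22_det_eq (γ : SL(2, ℤ)) : γ 0 0 * γ 1 1 - γ 0 1 * γ 1 0 = 1 := by
  have h := γ.det_coe
  rwa [Matrix.det_fin_two] at h

lemma FA_S22_heckeMatrix_inj {p : ℕ} [NeZero p] (x y : ZMod p) (γ : SL(2, ℤ))
    (h : ModularForm.heckeMatrix p x.val = mapGL ℝ γ * ModularForm.heckeMatrix p y.val) :
    x = y := by
  have hp : p ≠ 0 := NeZero.ne p
  have e := FA_S22_intMat_eq_of_eq (FA_S22_isIntMat_heckeMatrix hp x.val)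
    (FA_S22_isIntMat_heckeMatrix hp y.val) h
  have e00 := congrFun (congrFun e 0) 0
  have e01 := congrFun (congrFun e 0) 1
  simp [Matrix.mul_apply, Fin.sum_univ_two] at e00 e01
  have h2 := congrArg (Int.cast : ℤ → ZMod p) e01
  push_cast at h2
  rw [← e00] at h2
  simpa using h2

lemma FA_S22_heckeDiag_ne_heckeMatrix {p : ℕ} (hp : 2 ≤ p) (j : ℕ) (γ : SL(2, ℤ)) :
    ModularForm.heckeDiagMatrix p ≠ mapGL ℝ γ * ModularForm.heckeMatrix p j := by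
  intro h
  have hp0 : p ≠ 0 := by omega
  have e := FA_S22_intMat_eq_of_eq (FA_S22_isIntMat_heckeDiagMatrix hp0)
    (FA_S22_isIntMat_heckeMatrix hp0 j) h
  have e00 := congrFun (congrFun e 0) 0
  have e10 := congrFun (congrFun e 1) 0
  simp [Matrix.mul_apply, Fin.sum_univ_two] at e00 e10
  have hdet := FA_S22_det_eq γ
  rw [← e00, ← e10] at hdet
  have : (p : ℤ) ∣ 1 := ⟨γ 1 1, by linear_combination -hdet⟩
  have := Int.le_of_dvd one_pos this
  omega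

lemma FA_S22_heckeMatrix_ne_heckeDiag {p : ℕ} (hp : 2 ≤ p) (j : ℕ) (γ : SL(2, ℤ)) :
    ModularForm.heckeMatrix p j ≠ mapGL ℝ γ * ModularForm.heckeDiagMatrix p := by
  intro h
  have hp0 : p ≠ 0 := by omega
  have e := FA_S22_intMat_eq_of_eq (FA_S22_isIntMat_heckeMatrix hp0 j)
    (FA_S22_isIntMat_heckeDiagMatrix hp0) h
  have e00 := congrFun (congrFun e 0) 0
  simp [Matrix.mul_apply, Fin.sum_univ_two] at e00
  have : (p : ℤ) ∣ 1 := ⟨γ 0 0, by linear_combination e00⟩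
  have := Int.le_of_dvd one_pos this
  omega

section U

variable (N : ℕ) [NeZero N] (p : ℕ) [NeZero p]

/-- representatives for `U_p` -/
noncomputable def FA_S22_alphaU : ZMod p → GL (Fin 2) ℝ := fun x => ModularForm.heckeMatrix p x.val

lemma FA_S22_hexU (hpN : p ∣ N) (x : ZMod p) (γ : ↥(CongruenceSubgroup.Gamma0 N)) :
    ∃ j, ∃ γ' : ↥(CongruenceSubgroup.Gamma0 N),
      FA_S22_alphaU p x * FA_S22_phi N γ = FA_S22_phi N γ' * FA_S22_alphaU p j := by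
  have hcN : (N : ℤ) ∣ (γ : SL(2, ℤ)) 1 0 :=
    (ZMod.intCast_zmod_eq_zero_iff_dvd _ _).mp (CongruenceSubgroup.Gamma0_mem.mp γ.2)
  have hc : (p : ℤ) ∣ (γ : SL(2, ℤ)) 1 0 := (Int.natCast_dvd_natCast.mpr hpN).trans hcN
  obtain ⟨g', hg', hmul⟩ := heckeMatrix_mul_of_dvd (γ : SL(2, ℤ)) hc x
  have hg'N : g' ∈ CongruenceSubgroup.Gamma0 N := by
    rw [CongruenceSubgroup.Gamma0_mem, hg']
    push_cast
    rw [CongruenceSubgroup.Gamma0_mem.mp γ.2, mul_zero]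
  exact ⟨_, ⟨g', hg'N⟩, hmul⟩

lemma FA_S22_huniqU (x y : ZMod p) (γ : ↥(CongruenceSubgroup.Gamma0 N))
    (h : FA_S22_alphaU p x = FA_S22_phi N γ * FA_S22_alphaU p y) : x = y :=
  FA_S22_heckeMatrix_inj x y (γ : SL(2, ℤ)) h

end U

section T

variable (N : ℕ) [NeZero N] (p : ℕ) [Fact p.Prime]

lemma FA_S22_hexT (hpN : ¬ p ∣ N) (x : OnePoint (ZMod p)) (γ : ↥(CongruenceSubgroup.Gamma0 N)) :
    ∃ j, ∃ γ' : ↥(CongruenceSubgroup.Gamma0 N),
      heckeRep p x * FA_S22_phi N γ = FA_S22_phi N γ' * heckeRep p j := by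
  have hcN : (N : ℤ) ∣ (γ : SL(2, ℤ)) 1 0 :=
    (ZMod.intCast_zmod_eq_zero_iff_dvd _ _).mp (CongruenceSubgroup.Gamma0_mem.mp γ.2)
  obtain ⟨g', hg', hmul⟩ := heckeRep_mul hpN (γ : SL(2, ℤ)) hcN x
  have hg'N : g' ∈ CongruenceSubgroup.Gamma0 N :=
    CongruenceSubgroup.Gamma0_mem.mpr ((ZMod.intCast_zmod_eq_zero_iff_dvd _ _).mpr hg')
  exact ⟨_, ⟨g', hg'N⟩, hmul⟩

lemma FA_S22_huniqT (x y : OnePoint (ZMod p)) (γ : ↥(CongruenceSubgroup.Gamma0 N))
    (h : heckeRep p x = FA_S22_phi N γ * heckeRep p y) : x = y := by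
  have hp2 : 2 ≤ p := (Fact.out : p.Prime).two_le
  induction x using OnePoint.rec with
  | infty =>
    induction y using OnePoint.rec with
    | infty => rfl
    | coe j =>
      exact absurd h (FA_S22_heckeDiag_ne_heckeMatrix hp2 j.val (γ : SL(2, ℤ)))
  | coe i =>
    induction y using OnePoint.rec with
    | infty =>
      exact absurd h (FA_S22_heckeMatrix_ne_heckeDiag hp2 i.val (γ : SL(2, ℤ)))
    | coe j =>
      have := FA_S22_heckeMatrix_inj i j (γ : SL(2, ℤ)) h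
      rw [this]

end T

end FA_S22
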