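import Mathlib
import Fermat.Prelude.Def_CuspForm_HeckeAlgebra

/-!
# S22, D7: trivial weights

For `k` odd or `k ≤ 0` the space `S_k(Γ₀(N))` is zero, and then the Hecke algebra (a subalgebra
of the endomorphisms of the zero space) is a finite `ℤ`-module.
-/

set_option autoImplicit false

open CongruenceSubgroup UpperHalfPlane ModularForm
open scoped MatrixGroups

namespace FA_S22

theorem FA_S22_neg_one_mem_Gamma0 (N : ℕ) :
    (-1 : GL (Fin 2) ℝ) ∈ (Gamma0 N : Subgroup (GL (Fin 2) ℝ)) := by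
  refine ⟨-1, ?_, ?_⟩
  · rw [SetLike.mem_coe, Gamma0_mem]
    simp
  · ext i j
    simp

theorem FA_S22_cuspForm_eq_zero_of_odd (N : ℕ) [NeZero N] (k : ℤ) (hk : Odd k)
    (f : CuspForm (Gamma0 N) k) : f = 0 := by
  have h := ModularForm.eq_zero_of_neg_one_mem (FA_S22_neg_one_mem_Gamma0 N) hk
    (CuspForm.toModularFormₗ f)
  apply CuspForm.toModularFormₗ_injective (Γ := (Gamma0 N : Subgroup (GL (Fin 2) ℝ))) (k := k)
  rw [h, _root_.map_zero]

theorem FA_S22_cuspForm_eq_zero_of_nonpos (N : ℕ) [NeZero N] (k : ℤ) (hk : k ≤ 0)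
    (f : CuspForm (Gamma0 N) k) : f = 0 := by
  rcases lt_or_eq_of_le hk with hneg | rfl
  · have h := ModularForm.isZero_of_neg_weight hneg (CuspForm.toModularFormₗ f)
    apply CuspForm.toModularFormₗ_injective (Γ := (Gamma0 N : Subgroup (GL (Fin 2) ℝ))) (k := k)
    rw [h, _root_.map_zero]
  · obtain ⟨c, hc⟩ := ModularForm.eq_const_of_weight_zero (CuspForm.toModularFormₗ f)
    have hc' : (f : ℍ → ℂ) = Function.const ℍ c := hc
    have hzero : IsZeroAtImInfty (f : ℍ → ℂ) := CuspFormClass.zero_at_infty f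
    rw [hc'] at hzero
    have hc0 : c = 0 := by
      have h1 : Filter.Tendsto (Function.const ℍ c) atImInfty (nhds 0) := hzero
      have h2 : Filter.Tendsto (Function.const ℍ c) atImInfty (nhds c) := tendsto_const_nhds
      exact tendsto_nhds_unique h2 h1
    ext z
    have := congrFun hc' z
    simpa [hc0] using this

theorem FA_S22_finite_of_forall_eq_zero (N : ℕ) [NeZero N] (k : ℤ) (S : Set ℕ)
    (h : ∀ f : CuspForm (Gamma0 N) k, f = 0) :
    Module.Finite ℤ (CuspForm.heckeAlgebra N k S) := by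
  have : Subsingleton (CuspForm (Gamma0 N) k) := ⟨fun a b => by rw [h a, h b]⟩
  have : Subsingleton (Module.End ℂ (CuspForm (Gamma0 N) k)) :=
    ⟨fun a b => LinearMap.ext fun x => Subsingleton.elim _ _⟩
  have : Subsingleton (CuspForm.heckeAlgebra N k S) :=
    ⟨fun a b => Subtype.ext (Subsingleton.elim _ _)⟩
  infer_instance

/-- S22 for odd or non-positive weights. -/
theorem FA_S22_finite_trivial (N : ℕ) [NeZero N] (k : ℤ) (S : Set ℕ) (hk : Odd k ∨ k ≤ 0) :
    Module.Finite ℤ (CuspForm.heckeAlgebra N k S) := by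
  rcases hk with hk | hk
  · exact FA_S22_finite_of_forall_eq_zero N k S (FA_S22_cuspForm_eq_zero_of_odd N k hk)
  · exact FA_S22_finite_of_forall_eq_zero N k S (FA_S22_cuspForm_eq_zero_of_nonpos N k hk)

end FA_S22
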