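import Fermat.Agent.S22.GlueHecke
import Fermat.Agent.S22.Primitive
import Fermat.Agent.S22.Abstract
import Fermat.Agent.S22.Trivial

/-!
# S22 glue, part 3: the Eichler–Shimura correspondence and the final assembly
-/

set_option autoImplicit false

namespace FA_S22

open UpperHalfPlane Matrix.SpecialLinearGroup
open P2MW.S_ModularForm_heckeT_slash_eq_self_of_mem_Gamma0.ModularForm.HeckeSlashInvariance
open scoped ModularForm MatrixGroups Manifold

/-- the action as additive maps -/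
noncomputable def FA_S22_actHom (n : ℕ) (g : GL (Fin 2) ℝ) :
    (Fin (n + 1) → ℂ) →+ (Fin (n + 1) → ℂ) := (FA_S22_act n g).toAddMonoidHom

lemma FA_S22_actHom_apply (n : ℕ) (g : GL (Fin 2) ℝ) (v : Fin (n + 1) → ℂ) :
    FA_S22_actHom n g v = FA_S22_act n g v := rfl

lemma FA_S22_actHom_mul (n : ℕ) (g h : GL (Fin 2) ℝ) (v : Fin (n + 1) → ℂ) :
    FA_S22_actHom n (g * h) v = FA_S22_actHom n h (FA_S22_actHom n g v) :=
  FA_S22_act_mul n g h v

/-- the action on functions `ℍ → V` as additive maps -/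
noncomputable def FA_S22_slashHom (n : ℕ) (g : GL (Fin 2) ℝ) :
    (ℍ → Fin (n + 1) → ℂ) →+ (ℍ → Fin (n + 1) → ℂ) where
  toFun := FA_S22_slashE n g
  map_zero' := by funext τ; simp [FA_S22_slashE]
  map_add' := FA_S22_slashE_add n g

lemma FA_S22_slashHom_apply (n : ℕ) (g : GL (Fin 2) ℝ) (E : ℍ → Fin (n + 1) → ℂ) :
    FA_S22_slashHom n g E = FA_S22_slashE n g E := rfl

/-- constants -/
def FA_S22_constHom (n : ℕ) : (Fin (n + 1) → ℂ) →+ (ℍ → Fin (n + 1) → ℂ) where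
  toFun := fun v _ => v
  map_zero' := rfl
  map_add' := fun _ _ => rfl

/-- the Hecke operator on functions `Γ₀(N) → V` attached to a family of representatives -/
noncomputable def FA_S22_cocOp (N n : ℕ) {I : Type} [Fintype I] (α : I → GL (Fin 2) ℝ)
    (hex : ∀ i (γ : ↥(CongruenceSubgroup.Gamma0 N)), ∃ j, ∃ γ' : ↥(CongruenceSubgroup.Gamma0 N),
      α i * FA_S22_phi N γ = FA_S22_phi N γ' * α j) :
    Module.End ℂ (↥(CongruenceSubgroup.Gamma0 N) → Fin (n + 1) → ℂ) where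
  toFun := FA_S22_heckeCoc (FA_S22_phi N) α hex (FA_S22_actHom n)
  map_add' := FA_S22_heckeCoc_add _ _ _ _
  map_smul' := fun z c => by
    have := FA_S22_heckeCoc_comp (FA_S22_phi N) α hex (FA_S22_actHom n)
      ((z • (LinearMap.id : (Fin (n + 1) → ℂ) →ₗ[ℂ] (Fin (n + 1) → ℂ))).toAddMonoidHom)
      (fun g v => by
        simp only [LinearMap.toAddMonoidHom_coe, LinearMap.smul_apply, LinearMap.id_coe, id_eq,
          FA_S22_actHom_apply, map_smul]) c
    simp only [LinearMap.toAddMonoidHom_coe, LinearMap.smul_apply, LinearMap.id_coe, id_eq,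
      RingHom.id_apply] at this ⊢
    exact this

lemma FA_S22_cocOp_apply (N n : ℕ) {I : Type} [Fintype I] (α : I → GL (Fin 2) ℝ)
    (hex : ∀ i (γ : ↥(CongruenceSubgroup.Gamma0 N)), ∃ j, ∃ γ' : ↥(CongruenceSubgroup.Gamma0 N),
      α i * FA_S22_phi N γ = FA_S22_phi N γ' * α j)
    (c : ↥(CongruenceSubgroup.Gamma0 N) → Fin (n + 1) → ℂ) :
    FA_S22_cocOp N n α hex c = FA_S22_heckeCoc (FA_S22_phi N) α hex (FA_S22_actHom n) c := rfl

/-- the Eichler–Shimura correspondence -/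
def FA_S22_Rel (N n : ℕ) (f : ℍ → ℂ) (c : ↥(CongruenceSubgroup.Gamma0 N) → Fin (n + 1) → ℂ) :
    Prop :=
  ∃ E : ℍ → Fin (n + 1) → ℂ, FA_S22_IsEichler n f E ∧
    ∀ γ : ↥(CongruenceSubgroup.Gamma0 N),
      FA_S22_slashE n (FA_S22_phi N γ) E - E = fun _ => c γ

lemma FA_S22_Rel.add {N n : ℕ} {f f' : ℍ → ℂ}
    {c c' : ↥(CongruenceSubgroup.Gamma0 N) → Fin (n + 1) → ℂ}
    (h : FA_S22_Rel N n f c) (h' : FA_S22_Rel N n f' c') : FA_S22_Rel N n (f + f') (c + c') := by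
  obtain ⟨E, hE, hc⟩ := h
  obtain ⟨E', hE', hc'⟩ := h'
  refine ⟨E + E', hE.add hE', fun γ => ?_⟩
  rw [FA_S22_slashE_add]
  have := congrArg₂ (· + ·) (hc γ) (hc' γ)
  rw [add_sub_add_comm, this]
  rfl

lemma FA_S22_Rel.zero (N n : ℕ) : FA_S22_Rel N n 0 (0 : ↥(CongruenceSubgroup.Gamma0 N) → _) := by
  refine ⟨0, FA_S22_IsEichler.zero n, fun γ => ?_⟩
  funext τ
  simp [FA_S22_slashE]

lemma FA_S22_Rel.neg {N n : ℕ} {f : ℍ → ℂ}
    {c : ↥(CongruenceSubgroup.Gamma0 N) → Fin (n + 1) → ℂ}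
    (h : FA_S22_Rel N n f c) : FA_S22_Rel N n (-f) (-c) := by
  obtain ⟨E, hE, hc⟩ := h
  refine ⟨-E, hE.neg, fun γ => ?_⟩
  funext τ
  have h2 := congrFun (hc γ) τ
  simp only [Pi.neg_apply, Pi.sub_apply, FA_S22_slashE, map_neg] at h2 ⊢
  rw [← h2]
  abel

/-- the cocycle of an Eichler integral is a cocycle -/
lemma FA_S22_Rel.cocycle {N n : ℕ} {f : ℍ → ℂ}
    {c : ↥(CongruenceSubgroup.Gamma0 N) → Fin (n + 1) → ℂ}
    (h : FA_S22_Rel N n f c) (γ δ : ↥(CongruenceSubgroup.Gamma0 N)) :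
    c (γ * δ) = FA_S22_act n (FA_S22_phi N δ) (c γ) + c δ := by
  obtain ⟨E, -, hc⟩ := h
  have h1 := congrFun (hc (γ * δ)) I
  have h2 := congrFun (hc δ) I
  have h3 := congrFun (hc γ) (FA_S22_phi N δ • I)
  simp only [Pi.sub_apply, map_mul, FA_S22_slashE_mul] at h1 h2 h3
  rw [← h1]
  simp only [FA_S22_slashE] at h2 h3 ⊢
  rw [← h2, ← h3, map_sub]
  abel

end FA_S22

namespace FA_S22

open UpperHalfPlane Matrix.SpecialLinearGroup
open P2MW.S_ModularForm_heckeT_slash_eq_self_of_mem_Gamma0.ModularForm.HeckeSlashInvariance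
open scoped ModularForm MatrixGroups Manifold

/-- existence of Eichler integrals -/
lemma FA_S22_exists_eichler (n : ℕ) (f : ℍ → ℂ) (hf : MDifferentiable 𝓘(ℂ) 𝓘(ℂ) f) :
    ∃ E : ℍ → Fin (n + 1) → ℂ, FA_S22_IsEichler n f E := by
  have hex : ∀ j : Fin (n + 1), ∃ F : ℂ → ℂ, ∀ z : ℂ, 0 < z.im →
      HasDerivAt F ((f ∘ ofComplex) z * FA_S22_pw n z j) z := by
    intro j
    apply FA_S22_exists_primitive
    have h1 : DifferentiableOn ℂ (f ∘ ofComplex) {z | 0 < z.im} := mdifferentiable_iff.mp hf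
    have h2 : Differentiable ℂ (fun z => FA_S22_pw n z j) := by
      unfold FA_S22_pw
      fun_prop
    exact h1.mul h2.differentiableOn
  choose F hF using hex
  refine ⟨fun τ j => F j τ, fun τ j => ?_⟩
  have := hF j τ τ.im_pos
  simp only [Function.comp_apply, ofComplex_apply] at this
  refine this.congr_of_eventuallyEq ?_
  filter_upwards [isOpen_upperHalfPlaneSet.mem_nhds τ.im_pos] with w hw
  rw [ofComplex_apply_of_im_pos hw]

lemma FA_S22_det_phi_pos (N : ℕ) (γ : ↥(CongruenceSubgroup.Gamma0 N)) :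
    (0 : ℝ) < (FA_S22_phi N γ).det.val := by
  rw [FA_S22_phi_apply]
  simp

section main

variable (N : ℕ) [NeZero N] (n : ℕ)

/-- every cusp form has an Eichler–Shimura cocycle -/
lemma FA_S22_rel_surj (f : CuspForm (CongruenceSubgroup.Gamma0 N) ((n : ℤ) + 2)) :
    ∃ c, FA_S22_Rel N n f c := by
  obtain ⟨E, hE⟩ := FA_S22_exists_eichler n f (CuspFormClass.holo f)
  refine ⟨fun γ => (FA_S22_slashE n (FA_S22_phi N γ) E - E) I, E, hE, fun γ => ?_⟩
  have hinv : (⇑f) ∣[(n : ℤ) + 2] (FA_S22_phi N γ) = ⇑f :=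
    SlashInvariantFormClass.slash_action_eq f (FA_S22_phi N γ)
      (Subgroup.mem_map_of_mem (mapGL ℝ) γ.2)
  have h1 := (hE.slash (FA_S22_phi N γ) (FA_S22_det_phi_pos N γ)).sub hE
  rw [hinv, sub_self] at h1
  funext τ
  exact h1.const_of_zero τ I

/-- injectivity -/
lemma FA_S22_rel_inj (f : CuspForm (CongruenceSubgroup.Gamma0 N) ((n : ℤ) + 2))
    (h : FA_S22_Rel N n f 0) : f = 0 := by
  obtain ⟨E, hE, hc⟩ := h
  apply FA_S22_inj N n f E hE
  intro γ hγ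
  have := hc ⟨γ, hγ⟩
  rw [sub_eq_iff_eq_add] at this
  rw [FA_S22_phi_apply] at this
  rw [this]
  funext τ
  simp

/-- the cocycle of an Eichler integral lies in the span of the integral cocycles -/
lemma FA_S22_rel_span {f : ℍ → ℂ} {c : ↥(CongruenceSubgroup.Gamma0 N) → Fin (n + 1) → ℂ}
    (h : FA_S22_Rel N n f c) :
    c ∈ Submodule.span ℂ (FA_S22_intCocycles (FA_S22_M N n) :
      Set (↥(CongruenceSubgroup.Gamma0 N) → Fin (n + 1) → ℂ)) := by
  apply FA_S22_cocycles_le_span (FA_S22_M N n) (FA_S22_M_one N n)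
  intro γ δ
  rw [h.cocycle γ δ, FA_S22_act_phi]

/-- Hecke stability of the correspondence, general family of representatives -/
lemma FA_S22_rel_hecke {I : Type} [Fintype I] (α : I → GL (Fin 2) ℝ)
    (hex : ∀ i (γ : ↥(CongruenceSubgroup.Gamma0 N)), ∃ j, ∃ γ' : ↥(CongruenceSubgroup.Gamma0 N),
      α i * FA_S22_phi N γ = FA_S22_phi N γ' * α j)
    (huniq : ∀ i j (γ : ↥(CongruenceSubgroup.Gamma0 N)), α i = FA_S22_phi N γ * α j → i = j)
    (hdet : ∀ i, (0 : ℝ) < (α i).det.val)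
    {f : ℍ → ℂ} {c : ↥(CongruenceSubgroup.Gamma0 N) → Fin (n + 1) → ℂ}
    (h : FA_S22_Rel N n f c) :
    FA_S22_Rel N n (∑ i, f ∣[(n : ℤ) + 2] α i) (FA_S22_cocOp N n α hex c) := by
  obtain ⟨E, hE, hc⟩ := h
  refine ⟨∑ i, FA_S22_slashE n (α i) E,
    FA_S22_IsEichler.sum Finset.univ (fun i _ => hE.slash (α i) (hdet i)), fun γ => ?_⟩
  have := FA_S22_heckeCoc_equivariant (FA_S22_phi N) α hex (FA_S22_actHom n)
    (FA_S22_phi_injective N) huniq (FA_S22_slashHom n)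
    (fun g h x => FA_S22_slashE_mul n g h x) (FA_S22_constHom n)
    (fun g v => FA_S22_slashE_const n g v) E c (fun γ => hc γ) γ
  exact this

/-- Hecke stability of the lattice of integral cocycles -/
lemma FA_S22_lattice_hecke {I : Type} [Fintype I] (α : I → GL (Fin 2) ℝ)
    (hex : ∀ i (γ : ↥(CongruenceSubgroup.Gamma0 N)), ∃ j, ∃ γ' : ↥(CongruenceSubgroup.Gamma0 N),
      α i * FA_S22_phi N γ = FA_S22_phi N γ' * α j)
    (huniq : ∀ i j (γ : ↥(CongruenceSubgroup.Gamma0 N)), α i = FA_S22_phi N γ * α j → i = j)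
    (hint : ∀ i, ∃ A : Matrix (Fin 2) (Fin 2) ℤ, FA_S22_IsIntMat (α i) A)
    (c : ↥(CongruenceSubgroup.Gamma0 N) → Fin (n + 1) → ℂ)
    (hc : c ∈ FA_S22_intCocycles (FA_S22_M N n)) :
    FA_S22_cocOp N n α hex c ∈ FA_S22_intCocycles (FA_S22_M N n) := by
  obtain ⟨hc1, hc2⟩ := hc
  refine ⟨fun γ δ => ?_, fun γ j => ?_⟩
  · have := FA_S22_heckeCoc_isCocycle (FA_S22_phi N) α hex (FA_S22_actHom n)
      (FA_S22_phi_injective N) huniq (fun g h v => FA_S22_actHom_mul n g h v) c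
      (fun γ δ => by rw [hc1 γ δ, FA_S22_actHom_apply, FA_S22_act_phi]) γ δ
    rw [FA_S22_cocOp_apply, this, FA_S22_actHom_apply, FA_S22_act_phi]
  · have := FA_S22_heckeCoc_mem (FA_S22_phi N) α hex (FA_S22_actHom n) (FA_S22_intVec n)
      (fun i v hv => by
        obtain ⟨A, hA⟩ := hint i
        exact FA_S22_act_mem_intVec n hA v hv) c (fun γ => hc2 γ) γ
    exact this j

end main

end FA_S22
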