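import Mathlib

/-!
# S22, D3: Hecke operators on cocycles (pure group theory)

`G` a group, `Γ` a group with an injective hom `φ : Γ →* G`, a finite family `α : I → G` of
"coset representatives" such that `α i * φ γ = φ γ' * α j` is solvable (uniquely) in `(j, γ')`.
For a right action `act` of `G` on `V` and `c : Γ → V` we define
`(T c)(γ) = ∑ i, act (α (σ γ i)) (c (t γ i))`, where `α i * φ γ = φ (t γ i) * α (σ γ i)`.

* `FA_S22_heckeCoc_isCocycle` : `T` preserves cocycles `c (γ δ) = act (φ δ) (c γ) + c δ`.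
* `FA_S22_heckeCoc_mem` : `T` preserves cocycles with values in a subgroup stable under the `α i`.
* `FA_S22_heckeCoc_equivariant` : if `E|γ - E = const (c γ)` then
  `(∑ E|α_i)|γ - ∑ E|α_i = const ((T c) γ)`.
-/

set_option autoImplicit false

namespace FA_S22

section HeckeCoc

variable {G Γ I V 𝓜 : Type*} [Group G] [Group Γ] [Fintype I] [AddCommGroup V] [AddCommGroup 𝓜]
  (φ : Γ →* G) (α : I → G)
  (hex : ∀ i (γ : Γ), ∃ j, ∃ γ' : Γ, α i * φ γ = φ γ' * α j)
  (act : G → V →+ V)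

/-- the index `σ γ i` with `α i * φ γ ∈ φ Γ * α (σ γ i)` -/
noncomputable def FA_S22_sigma (γ : Γ) (i : I) : I := (hex i γ).choose

/-- the element `t γ i` of `Γ` with `α i * φ γ = φ (t γ i) * α (σ γ i)` -/
noncomputable def FA_S22_tee (γ : Γ) (i : I) : Γ := (hex i γ).choose_spec.choose

theorem FA_S22_sigma_tee_spec (γ : Γ) (i : I) :
    α i * φ γ = φ (FA_S22_tee φ α hex γ i) * α (FA_S22_sigma φ α hex γ i) :=
  (hex i γ).choose_spec.choose_spec

/-- The Hecke operator on functions `Γ → V`. -/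
noncomputable def FA_S22_heckeCoc (c : Γ → V) : Γ → V := fun γ =>
  ∑ i, act (α (FA_S22_sigma φ α hex γ i)) (c (FA_S22_tee φ α hex γ i))

theorem FA_S22_heckeCoc_apply (c : Γ → V) (γ : Γ) :
    FA_S22_heckeCoc φ α hex act c γ
      = ∑ i, act (α (FA_S22_sigma φ α hex γ i)) (c (FA_S22_tee φ α hex γ i)) := rfl

theorem FA_S22_heckeCoc_add (c d : Γ → V) :
    FA_S22_heckeCoc φ α hex act (c + d)
      = FA_S22_heckeCoc φ α hex act c + FA_S22_heckeCoc φ α hex act d := by
  funext γ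
  simp only [FA_S22_heckeCoc_apply, Pi.add_apply, map_add, Finset.sum_add_distrib]

theorem FA_S22_heckeCoc_zero : FA_S22_heckeCoc φ α hex act (0 : Γ → V) = 0 := by
  funext γ
  simp only [FA_S22_heckeCoc_apply, Pi.zero_apply, map_zero, Finset.sum_const_zero]

theorem FA_S22_heckeCoc_neg (c : Γ → V) :
    FA_S22_heckeCoc φ α hex act (-c) = -FA_S22_heckeCoc φ α hex act c := by
  funext γ
  simp only [FA_S22_heckeCoc_apply, Pi.neg_apply, map_neg, Finset.sum_neg_distrib]

theorem FA_S22_heckeCoc_sub (c d : Γ → V) :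
    FA_S22_heckeCoc φ α hex act (c - d)
      = FA_S22_heckeCoc φ α hex act c - FA_S22_heckeCoc φ α hex act d := by
  funext γ
  simp only [FA_S22_heckeCoc_apply, Pi.sub_apply, map_sub, Finset.sum_sub_distrib]

theorem FA_S22_heckeCoc_zsmul (n : ℤ) (c : Γ → V) :
    FA_S22_heckeCoc φ α hex act (n • c) = n • FA_S22_heckeCoc φ α hex act c := by
  funext γ
  simp only [FA_S22_heckeCoc_apply, Pi.smul_apply, map_zsmul, Finset.smul_sum]

/-- The Hecke operator as an additive map. -/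
noncomputable def FA_S22_heckeCocHom : (Γ → V) →+ (Γ → V) where
  toFun := FA_S22_heckeCoc φ α hex act
  map_zero' := FA_S22_heckeCoc_zero φ α hex act
  map_add' := FA_S22_heckeCoc_add φ α hex act

/-- `T` commutes with every additive map commuting with the action (e.g. scalar
multiplication). -/
theorem FA_S22_heckeCoc_comp (f : V →+ V) (hf : ∀ g v, act g (f v) = f (act g v)) (c : Γ → V) :
    FA_S22_heckeCoc φ α hex act (fun γ => f (c γ))
      = fun γ => f (FA_S22_heckeCoc φ α hex act c γ) := by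
  funext γ
  simp only [FA_S22_heckeCoc_apply, map_sum, hf]

theorem FA_S22_heckeCoc_mem (P : AddSubgroup V) (hP : ∀ i v, v ∈ P → act (α i) v ∈ P)
    (c : Γ → V) (hc : ∀ γ, c γ ∈ P) (γ : Γ) : FA_S22_heckeCoc φ α hex act c γ ∈ P := by
  rw [FA_S22_heckeCoc_apply]
  exact P.sum_mem fun i _ => hP _ _ (hc _)

variable (hφ : Function.Injective φ) (huniq : ∀ i j (γ : Γ), α i = φ γ * α j → i = j)

include hφ huniq

theorem FA_S22_sigma_tee_unique {γ : Γ} {i j : I} {γ' : Γ} (h : α i * φ γ = φ γ' * α j) :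
    FA_S22_sigma φ α hex γ i = j ∧ FA_S22_tee φ α hex γ i = γ' := by
  have hs := FA_S22_sigma_tee_spec φ α hex γ i
  rw [h] at hs
  -- `φ γ' * α j = φ t * α σ`
  have h1 : α (FA_S22_sigma φ α hex γ i)
      = φ ((FA_S22_tee φ α hex γ i)⁻¹ * γ') * α j := by
    rw [map_mul, map_inv, mul_assoc, hs, ← mul_assoc, inv_mul_cancel, one_mul]
  have hσ : FA_S22_sigma φ α hex γ i = j := huniq _ _ _ h1
  refine ⟨hσ, ?_⟩
  rw [hσ] at hs
  exact (hφ (mul_right_cancel hs)).symm

theorem FA_S22_sigma_one (i : I) : FA_S22_sigma φ α hex 1 i = i :=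
  (FA_S22_sigma_tee_unique φ α hex hφ huniq (γ := 1) (i := i) (j := i) (γ' := 1)
    (by simp)).1

theorem FA_S22_tee_one (i : I) : FA_S22_tee φ α hex 1 i = 1 :=
  (FA_S22_sigma_tee_unique φ α hex hφ huniq (γ := 1) (i := i) (j := i) (γ' := 1)
    (by simp)).2

theorem FA_S22_sigma_tee_mul (γ δ : Γ) (i : I) :
    FA_S22_sigma φ α hex (γ * δ) i = FA_S22_sigma φ α hex δ (FA_S22_sigma φ α hex γ i) ∧
    FA_S22_tee φ α hex (γ * δ) i
      = FA_S22_tee φ α hex γ i * FA_S22_tee φ α hex δ (FA_S22_sigma φ α hex γ i) := by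
  apply FA_S22_sigma_tee_unique φ α hex hφ huniq
  rw [map_mul, ← mul_assoc, FA_S22_sigma_tee_spec φ α hex γ i, mul_assoc,
    FA_S22_sigma_tee_spec φ α hex δ, map_mul, mul_assoc]

theorem FA_S22_sigma_mul (γ δ : Γ) (i : I) :
    FA_S22_sigma φ α hex (γ * δ) i = FA_S22_sigma φ α hex δ (FA_S22_sigma φ α hex γ i) :=
  (FA_S22_sigma_tee_mul φ α hex hφ huniq γ δ i).1

theorem FA_S22_tee_mul (γ δ : Γ) (i : I) :
    FA_S22_tee φ α hex (γ * δ) i
      = FA_S22_tee φ α hex γ i * FA_S22_tee φ α hex δ (FA_S22_sigma φ α hex γ i) :=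
  (FA_S22_sigma_tee_mul φ α hex hφ huniq γ δ i).2

theorem FA_S22_sigma_bijective (γ : Γ) : Function.Bijective (FA_S22_sigma φ α hex γ) := by
  have hleft : Function.LeftInverse (FA_S22_sigma φ α hex γ⁻¹) (FA_S22_sigma φ α hex γ) := by
    intro i
    rw [← FA_S22_sigma_mul φ α hex hφ huniq, mul_inv_cancel, FA_S22_sigma_one φ α hex hφ huniq]
  have hright : Function.RightInverse (FA_S22_sigma φ α hex γ⁻¹) (FA_S22_sigma φ α hex γ) := by
    intro i
    rw [← FA_S22_sigma_mul φ α hex hφ huniq, inv_mul_cancel, FA_S22_sigma_one φ α hex hφ huniq]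
  exact ⟨hleft.injective, hright.surjective⟩

/-- Reindexing a sum along `σ γ`. -/
theorem FA_S22_sum_sigma {M : Type*} [AddCommMonoid M] (γ : Γ) (f : I → M) :
    ∑ i, f (FA_S22_sigma φ α hex γ i) = ∑ i, f i :=
  Fintype.sum_bijective _ (FA_S22_sigma_bijective φ α hex hφ huniq γ) _ _ fun _ => rfl

variable (act_mul : ∀ g h v, act (g * h) v = act h (act g v))

include act_mul

/-- `T` preserves cocycles. -/
theorem FA_S22_heckeCoc_isCocycle (c : Γ → V)
    (hc : ∀ γ δ, c (γ * δ) = act (φ δ) (c γ) + c δ) (γ δ : Γ) :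
    FA_S22_heckeCoc φ α hex act c (γ * δ)
      = act (φ δ) (FA_S22_heckeCoc φ α hex act c γ) + FA_S22_heckeCoc φ α hex act c δ := by
  simp only [FA_S22_heckeCoc_apply]
  rw [← FA_S22_sum_sigma φ α hex hφ huniq γ
    (fun j => act (α (FA_S22_sigma φ α hex δ j)) (c (FA_S22_tee φ α hex δ j)))]
  rw [map_sum, ← Finset.sum_add_distrib]
  refine Finset.sum_congr rfl fun i _ => ?_
  rw [FA_S22_sigma_mul φ α hex hφ huniq, FA_S22_tee_mul φ α hex hφ huniq, hc, map_add]
  congr 1
  rw [← act_mul, ← act_mul, FA_S22_sigma_tee_spec φ α hex δ]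

omit hφ huniq in
/-- Coboundaries: if `c γ = act (φ γ) v - v` then `T c γ = act (φ γ) w - w` with
`w = ∑ i, act (α i) v` (needs the bijectivity of `σ γ`). -/
theorem FA_S22_heckeCoc_coboundary (hφ : Function.Injective φ)
    (huniq : ∀ i j (γ : Γ), α i = φ γ * α j → i = j) (v : V) (γ : Γ) :
    FA_S22_heckeCoc φ α hex act (fun γ => act (φ γ) v - v) γ
      = act (φ γ) (∑ i, act (α i) v) - ∑ i, act (α i) v := by
  simp only [FA_S22_heckeCoc_apply]
  rw [map_sum]
  conv_rhs => rw [← FA_S22_sum_sigma φ α hex hφ huniq γ (fun j => act (α j) v)]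
  rw [← Finset.sum_sub_distrib]
  refine Finset.sum_congr rfl fun i _ => ?_
  rw [map_sub, ← act_mul, ← act_mul, FA_S22_sigma_tee_spec φ α hex γ i]

omit act_mul in
/-- Equivariance: `𝓜` a right `G`-module containing `V` via an equivariant `const`. -/
theorem FA_S22_heckeCoc_equivariant (actM : G → 𝓜 →+ 𝓜)
    (actM_mul : ∀ g h x, actM (g * h) x = actM h (actM g x))
    (const : V →+ 𝓜) (hconst : ∀ g v, actM g (const v) = const (act g v))
    (E : 𝓜) (c : Γ → V) (hE : ∀ γ, actM (φ γ) E - E = const (c γ)) (γ : Γ) :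
    actM (φ γ) (∑ i, actM (α i) E) - ∑ i, actM (α i) E
      = const (FA_S22_heckeCoc φ α hex act c γ) := by
  rw [FA_S22_heckeCoc_apply, map_sum, map_sum]
  conv_lhs =>
    rw [← FA_S22_sum_sigma φ α hex hφ huniq γ (fun j => actM (α j) E)]
  rw [← Finset.sum_sub_distrib]
  refine Finset.sum_congr rfl fun i _ => ?_
  rw [← hconst, ← hE, map_sub, ← actM_mul, ← actM_mul, FA_S22_sigma_tee_spec φ α hex γ i]

end HeckeCoc

end FA_S22
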