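import Mathlib

/-!
# S22: the symmetric power action on coefficient vectors

`V_n(R) = Fin (n+1) → R`, `v ↔ ∑ v_j x^j` (dehomogenised binary forms of degree `n`).
Right action of `2×2` matrices: `(v|g)(x) = (c x + d)^n v((a x + b)/(c x + d))`.
-/

set_option autoImplicit false

namespace FA_S22

open Polynomial

section general

variable {R : Type*} [CommRing R]

/-- `(aX+b)^j (cX+d)^(n-j)` -/
noncomputable def FA_S22_basePoly (n : ℕ) (g : Matrix (Fin 2) (Fin 2) R) (j : ℕ) : R[X] :=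
  (C (g 0 0) * X + C (g 0 1)) ^ j * (C (g 1 0) * X + C (g 1 1)) ^ (n - j)

lemma FA_S22_basePoly_natDegree_le (n : ℕ) (g : Matrix (Fin 2) (Fin 2) R) (j : ℕ) (hj : j ≤ n) :
    (FA_S22_basePoly n g j).natDegree ≤ n := by
  unfold FA_S22_basePoly
  have h1 : ∀ a b : R, (C a * X + C b : R[X]).natDegree ≤ 1 := fun a b =>
    natDegree_linear_le
  calc ((C (g 0 0) * X + C (g 0 1)) ^ j * (C (g 1 0) * X + C (g 1 1)) ^ (n - j)).natDegree
      ≤ ((C (g 0 0) * X + C (g 0 1)) ^ j).natDegree +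
          ((C (g 1 0) * X + C (g 1 1)) ^ (n - j)).natDegree := natDegree_mul_le
    _ ≤ j * 1 + (n - j) * 1 := by
        gcongr
        · exact natDegree_pow_le_of_le j (h1 _ _)
        · exact natDegree_pow_le_of_le (n - j) (h1 _ _)
    _ = n := by omega

/-- matrix of the action of `g` on `V_n` -/
noncomputable def FA_S22_symMat (n : ℕ) (g : Matrix (Fin 2) (Fin 2) R) :
    Matrix (Fin (n + 1)) (Fin (n + 1)) R :=
  Matrix.of fun i j => (FA_S22_basePoly n g j).coeff i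

/-- evaluation `∑_j v_j x^j` -/
def FA_S22_ev (n : ℕ) (x : R) (v : Fin (n + 1) → R) : R := ∑ j : Fin (n + 1), v j * x ^ (j : ℕ)

lemma FA_S22_ev_add (n : ℕ) (x : R) (v w : Fin (n + 1) → R) :
    FA_S22_ev n x (v + w) = FA_S22_ev n x v + FA_S22_ev n x w := by
  simp [FA_S22_ev, add_mul, Finset.sum_add_distrib]

lemma FA_S22_ev_smul (n : ℕ) (x : R) (c : R) (v : Fin (n + 1) → R) :
    FA_S22_ev n x (c • v) = c * FA_S22_ev n x v := by
  simp [FA_S22_ev, Finset.mul_sum, mul_assoc]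

lemma FA_S22_ev_sub (n : ℕ) (x : R) (v w : Fin (n + 1) → R) :
    FA_S22_ev n x (v - w) = FA_S22_ev n x v - FA_S22_ev n x w := by
  simp [FA_S22_ev, sub_mul, Finset.sum_sub_distrib]

lemma FA_S22_ev_zero (n : ℕ) (x : R) : FA_S22_ev n x (0 : Fin (n + 1) → R) = 0 := by
  simp [FA_S22_ev]

/-- the polynomial with coefficient vector `v` -/
noncomputable def FA_S22_toPoly (n : ℕ) (v : Fin (n + 1) → R) : R[X] :=
  ∑ j : Fin (n + 1), C (v j) * X ^ (j : ℕ)

lemma FA_S22_eval_toPoly (n : ℕ) (x : R) (v : Fin (n + 1) → R) :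
    (FA_S22_toPoly n v).eval x = FA_S22_ev n x v := by
  simp [FA_S22_toPoly, FA_S22_ev, eval_finsetSum]

lemma FA_S22_coeff_toPoly (n : ℕ) (v : Fin (n + 1) → R) (i : Fin (n + 1)) :
    (FA_S22_toPoly n v).coeff i = v i := by
  simp only [FA_S22_toPoly, finsetSum_coeff, coeff_C_mul, coeff_X_pow]
  rw [Finset.sum_eq_single i]
  · simp
  · intro j _ hji
    have : (i : ℕ) ≠ (j : ℕ) := fun h => hji (Fin.ext h.symm)
    simp [this]
  · simp

lemma FA_S22_ev_symMat (n : ℕ) (g : Matrix (Fin 2) (Fin 2) R) (x : R) (v : Fin (n + 1) → R) :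
    FA_S22_ev n x ((FA_S22_symMat n g).mulVec v) =
      ∑ j : Fin (n + 1), v j * ((g 0 0 * x + g 0 1) ^ (j : ℕ) * (g 1 0 * x + g 1 1) ^ (n - j)) := by
  have key : ∀ j : Fin (n + 1), ∑ i : Fin (n + 1), (FA_S22_basePoly n g j).coeff i * x ^ (i : ℕ) =
      (g 0 0 * x + g 0 1) ^ (j : ℕ) * (g 1 0 * x + g 1 1) ^ (n - j) := by
    intro j
    have hdeg : (FA_S22_basePoly n g j).natDegree < n + 1 :=
      Nat.lt_succ_of_le (FA_S22_basePoly_natDegree_le n g j (Nat.lt_succ_iff.mp j.2))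
    have := eval_eq_sum_range' hdeg x
    rw [← Fin.sum_univ_eq_sum_range (fun i => (FA_S22_basePoly n g j).coeff i * x ^ i)] at this
    rw [← this]
    simp [FA_S22_basePoly]
  unfold FA_S22_ev
  simp only [Matrix.mulVec, dotProduct, FA_S22_symMat, Matrix.of_apply]
  simp_rw [Finset.sum_mul]
  rw [Finset.sum_comm]
  refine Finset.sum_congr rfl fun j _ => ?_
  rw [← key j, Finset.mul_sum]
  refine Finset.sum_congr rfl fun i _ => ?_
  ring

lemma FA_S22_symMat_map {S : Type*} [CommRing S] (φ : R →+* S) (n : ℕ)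
    (g : Matrix (Fin 2) (Fin 2) R) :
    FA_S22_symMat n (g.map φ) = (FA_S22_symMat n g).map φ := by
  ext i j
  simp only [FA_S22_symMat, Matrix.of_apply, Matrix.map_apply, FA_S22_basePoly]
  rw [← coeff_map]
  simp [Polynomial.map_pow, Polynomial.map_mul, Polynomial.map_add]

lemma FA_S22_symMat_one (n : ℕ) :
    FA_S22_symMat n (1 : Matrix (Fin 2) (Fin 2) R) = 1 := by
  ext i j
  simp only [FA_S22_symMat, Matrix.of_apply, FA_S22_basePoly]
  simp [Matrix.one_apply, coeff_X_pow, Fin.ext_iff]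

end general

section field

variable {K : Type*} [Field K] [Infinite K]

omit [Infinite K] in
lemma FA_S22_ev_injective (n : ℕ) (s : Set K) (hs : s.Infinite) (v w : Fin (n + 1) → K)
    (h : ∀ x ∈ s, FA_S22_ev n x v = FA_S22_ev n x w) : v = w := by
  have hp : FA_S22_toPoly n v = FA_S22_toPoly n w := by
    apply eq_of_infinite_eval_eq
    refine hs.mono fun x hx => ?_
    simp only [Set.mem_ofPred_eq, FA_S22_eval_toPoly]
    exact h x hx
  ext i
  rw [← FA_S22_coeff_toPoly n v i, ← FA_S22_coeff_toPoly n w i, hp]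

omit [Infinite K] in
lemma FA_S22_ev_symMat_of_ne (n : ℕ) (g : Matrix (Fin 2) (Fin 2) K) (x : K)
    (hx : g 1 0 * x + g 1 1 ≠ 0) (v : Fin (n + 1) → K) :
    FA_S22_ev n x ((FA_S22_symMat n g).mulVec v) =
      (g 1 0 * x + g 1 1) ^ n * FA_S22_ev n ((g 0 0 * x + g 0 1) / (g 1 0 * x + g 1 1)) v := by
  rw [FA_S22_ev_symMat]
  unfold FA_S22_ev
  rw [Finset.mul_sum]
  refine Finset.sum_congr rfl fun j _ => ?_
  have hj : (j : ℕ) ≤ n := Nat.lt_succ_iff.mp j.2
  have : (g 1 0 * x + g 1 1) ^ n = (g 1 0 * x + g 1 1) ^ (j : ℕ) * (g 1 0 * x + g 1 1) ^ (n - j) := by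
    rw [← pow_add]; congr 1; omega
  have hne : (g 1 0 * x + g 1 1) ^ (j : ℕ) ≠ 0 := pow_ne_zero _ hx
  rw [this, div_pow]
  have e : (g 1 0 * x + g 1 1) ^ (j : ℕ) * (g 1 0 * x + g 1 1) ^ (n - j) *
      (v j * ((g 0 0 * x + g 0 1) ^ (j : ℕ) / (g 1 0 * x + g 1 1) ^ (j : ℕ))) =
      v j * ((g 0 0 * x + g 0 1) ^ (j : ℕ) * (g 1 0 * x + g 1 1) ^ (n - j)) *
        ((g 1 0 * x + g 1 1) ^ (j : ℕ) / (g 1 0 * x + g 1 1) ^ (j : ℕ)) := by ring
  rw [e, div_self hne, mul_one]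

lemma FA_S22_symMat_mul (n : ℕ) (g h : Matrix (Fin 2) (Fin 2) K)
    (hh : h 1 0 ≠ 0 ∨ h 1 1 ≠ 0) :
    FA_S22_symMat n (g * h) = FA_S22_symMat n h * FA_S22_symMat n g := by
  -- enough to check on vectors, by evaluation at infinitely many points
  have hinf : ({x : K | h 1 0 * x + h 1 1 ≠ 0} : Set K).Infinite := by
    have hfin : ({x : K | h 1 0 * x + h 1 1 = 0} : Set K).Finite := by
      by_cases hc : h 1 0 = 0
      · have hd : h 1 1 ≠ 0 := by tauto
        have : {x : K | h 1 0 * x + h 1 1 = 0} = ∅ := by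
          ext x; simp [hc, hd]
        rw [this]; exact Set.finite_empty
      · refine (Set.finite_singleton (-(h 1 1) / h 1 0)).subset fun x hx => ?_
        simp only [Set.mem_ofPred_eq] at hx
        simp only [Set.mem_singleton_iff]
        field_simp
        linear_combination hx
    have : {x : K | h 1 0 * x + h 1 1 ≠ 0} = {x : K | h 1 0 * x + h 1 1 = 0}ᶜ := by
      ext x; simp
    rw [this]
    exact hfin.infinite_compl
  apply Matrix.toLin'.injective
  apply LinearMap.ext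
  intro v
  simp only [Matrix.toLin'_apply, Matrix.toLin'_mul, LinearMap.comp_apply]
  apply FA_S22_ev_injective n _ hinf
  intro x hx
  simp only [Set.mem_ofPred_eq] at hx
  rw [FA_S22_ev_symMat_of_ne n h x hx, FA_S22_ev_symMat, FA_S22_ev_symMat]
  rw [Finset.mul_sum]
  refine Finset.sum_congr rfl fun j _ => ?_
  have hj : (j : ℕ) ≤ n := Nat.lt_succ_iff.mp j.2
  have : (h 1 0 * x + h 1 1) ^ n = (h 1 0 * x + h 1 1) ^ (j : ℕ) * (h 1 0 * x + h 1 1) ^ (n - j) := by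
    rw [← pow_add]; congr 1; omega
  rw [this]
  simp only [Matrix.mul_apply, Fin.sum_univ_two]
  have e1 : (h 1 0 * x + h 1 1) ^ (j : ℕ) *
      (g 0 0 * ((h 0 0 * x + h 0 1) / (h 1 0 * x + h 1 1)) + g 0 1) ^ (j : ℕ) =
      ((g 0 0 * h 0 0 + g 0 1 * h 1 0) * x + (g 0 0 * h 0 1 + g 0 1 * h 1 1)) ^ (j : ℕ) := by
    rw [← mul_pow]; congr 1; field_simp; ring
  have e2 : (h 1 0 * x + h 1 1) ^ (n - j) *
      (g 1 0 * ((h 0 0 * x + h 0 1) / (h 1 0 * x + h 1 1)) + g 1 1) ^ (n - j) =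
      ((g 1 0 * h 0 0 + g 1 1 * h 1 0) * x + (g 1 0 * h 0 1 + g 1 1 * h 1 1)) ^ (n - j) := by
    rw [← mul_pow]; congr 1; field_simp; ring
  rw [← e1, ← e2]
  ring

end field

end FA_S22
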