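import Fermat.Agent.S22.Eichler

/-!
# S22: Taylor coefficients of an Eichler integral along the diagonal

`K_j(z) = ∑_i C(i,j) z^(i-j) E_i(z)` (the `j`-th Taylor coefficient of `E(z)(x)` at `x = z`).
`K_0(z) = E(z)(z)`, `K_j' = (j+1) K_{j+1}` for `j < n`, `K_n' = f`.
Hence `K_0` constant implies `f = 0`.
-/

set_option autoImplicit false

namespace FA_S22

open UpperHalfPlane Polynomial
open scoped Manifold

/-- `j`-th Taylor coefficient at `z` of the polynomial with coefficient vector `v` -/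
def FA_S22_tay (n j : ℕ) (z : ℂ) (v : Fin (n + 1) → ℂ) : ℂ :=
  ∑ i : Fin (n + 1), (((i : ℕ).choose j : ℕ) : ℂ) * z ^ ((i : ℕ) - j) * v i

lemma FA_S22_tay_zero (n : ℕ) (z : ℂ) (v : Fin (n + 1) → ℂ) :
    FA_S22_tay n 0 z v = FA_S22_ev n z v := by
  unfold FA_S22_tay FA_S22_ev
  refine Finset.sum_congr rfl fun i _ => ?_
  simp [mul_comm]

lemma FA_S22_tay_top (n : ℕ) (z : ℂ) (v : Fin (n + 1) → ℂ) :
    FA_S22_tay n (n + 1) z v = 0 := by
  unfold FA_S22_tay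
  refine Finset.sum_eq_zero fun i _ => ?_
  rw [Nat.choose_eq_zero_of_lt i.2]
  simp

lemma FA_S22_tay_eq_eval (n j : ℕ) (z : ℂ) (v : Fin (n + 1) → ℂ) :
    FA_S22_tay n j z v = (hasseDeriv j (FA_S22_toPoly n v)).eval z := by
  unfold FA_S22_toPoly FA_S22_tay
  rw [map_sum, eval_finsetSum]
  refine Finset.sum_congr rfl fun i _ => ?_
  rw [C_mul_X_pow_eq_monomial, hasseDeriv_monomial, eval_monomial]
  ring

lemma FA_S22_toPoly_pw (n : ℕ) (z : ℂ) : FA_S22_toPoly n (FA_S22_pw n z) = (X - C z) ^ n := by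
  apply Polynomial.funext
  intro x
  rw [FA_S22_eval_toPoly, FA_S22_ev_pw]
  simp

lemma FA_S22_tay_pw (n j : ℕ) (z : ℂ) :
    FA_S22_tay n j z (FA_S22_pw n z) = if j = n then 1 else 0 := by
  rw [FA_S22_tay_eq_eval, FA_S22_toPoly_pw, ← taylor_coeff, taylor_pow, map_sub, taylor_X,
    taylor_C, add_sub_cancel_right, coeff_X_pow]

theorem FA_S22_hasDerivAt_tay {n : ℕ} {f : ℍ → ℂ} {E : ℍ → Fin (n + 1) → ℂ}
    (hE : FA_S22_IsEichler n f E) (j : ℕ) (τ : ℍ) :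
    HasDerivAt (fun w : ℂ => FA_S22_tay n j w (E (ofComplex w)))
      (((j + 1 : ℕ) : ℂ) * FA_S22_tay n (j + 1) τ (E τ) + f τ * (if j = n then 1 else 0))
      (τ : ℂ) := by
  have hterm : ∀ i : Fin (n + 1), HasDerivAt
      (fun w : ℂ => (((i : ℕ).choose j : ℕ) : ℂ) * w ^ ((i : ℕ) - j) * E (ofComplex w) i)
      ((((i : ℕ).choose j : ℕ) : ℂ) * ((((i : ℕ) - j : ℕ) : ℂ) * (τ : ℂ) ^ ((i : ℕ) - j - 1)) *
          E τ i +
        (((i : ℕ).choose j : ℕ) : ℂ) * (τ : ℂ) ^ ((i : ℕ) - j) *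
          (f τ * FA_S22_pw n τ i)) (τ : ℂ) := by
    intro i
    have h1 := ((hasDerivAt_pow ((i : ℕ) - j) (τ : ℂ)).const_mul
      ((((i : ℕ).choose j : ℕ) : ℂ)))
    have h2 := hE τ i
    have := h1.mul h2
    simp only [ofComplex_apply] at this
    exact this
  have hsum := HasDerivAt.fun_sum (u := Finset.univ)
    (A := fun (i : Fin (n + 1)) (w : ℂ) =>
      (((i : ℕ).choose j : ℕ) : ℂ) * w ^ ((i : ℕ) - j) * E (ofComplex w) i)
    (x := (τ : ℂ)) (fun i _ => hterm i)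
  have hval : (∑ i : Fin (n + 1),
      ((((i : ℕ).choose j : ℕ) : ℂ) * ((((i : ℕ) - j : ℕ) : ℂ) * (τ : ℂ) ^ ((i : ℕ) - j - 1)) *
          E τ i +
        (((i : ℕ).choose j : ℕ) : ℂ) * (τ : ℂ) ^ ((i : ℕ) - j) *
          (f τ * FA_S22_pw n τ i))) =
      ((j + 1 : ℕ) : ℂ) * FA_S22_tay n (j + 1) τ (E τ) + f τ * (if j = n then 1 else 0) := by
    rw [Finset.sum_add_distrib, ← FA_S22_tay_pw n j (τ : ℂ)]
    congr 1
    · unfold FA_S22_tay
      rw [Finset.mul_sum]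
      refine Finset.sum_congr rfl fun i _ => ?_
      have hch : ((((i : ℕ).choose j : ℕ) : ℂ)) * ((((i : ℕ) - j : ℕ) : ℂ)) =
          ((j + 1 : ℕ) : ℂ) * ((((i : ℕ).choose (j + 1) : ℕ) : ℂ)) := by
        have := Nat.choose_succ_right_eq (i : ℕ) j
        have h2 : (((i : ℕ).choose (j + 1) * (j + 1) : ℕ) : ℂ) =
            (((i : ℕ).choose j * ((i : ℕ) - j) : ℕ) : ℂ) := by rw [this]
        push_cast at h2
        push_cast
        rw [← h2]; ring
      have hexp : (i : ℕ) - j - 1 = (i : ℕ) - (j + 1) := by omega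
      rw [hexp]
      calc (((i : ℕ).choose j : ℕ) : ℂ) * ((((i : ℕ) - j : ℕ) : ℂ) * (τ : ℂ) ^ ((i : ℕ) - (j + 1))) *
            E τ i
          = ((((i : ℕ).choose j : ℕ) : ℂ) * (((i : ℕ) - j : ℕ) : ℂ)) *
              (τ : ℂ) ^ ((i : ℕ) - (j + 1)) * E τ i := by ring
        _ = _ := by rw [hch]; ring
    · unfold FA_S22_tay
      rw [Finset.mul_sum]
      refine Finset.sum_congr rfl fun i _ => ?_
      ring
  rw [← hval]
  exact hsum

theorem FA_S22_eq_zero_of_tay_const {n : ℕ} {f : ℍ → ℂ} {E : ℍ → Fin (n + 1) → ℂ}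
    (hE : FA_S22_IsEichler n f E) :
    ∀ (m j : ℕ), j + m = n →
      (∀ τ τ' : ℍ, FA_S22_tay n j τ (E τ) = FA_S22_tay n j τ' (E τ')) → ∀ τ, f τ = 0 := by
  have hzero : ∀ (j : ℕ), (∀ τ τ' : ℍ, FA_S22_tay n j τ (E τ) = FA_S22_tay n j τ' (E τ')) →
      ∀ τ : ℍ, ((j + 1 : ℕ) : ℂ) * FA_S22_tay n (j + 1) τ (E τ) +
        f τ * (if j = n then 1 else 0) = 0 := by
    intro j hconst τ
    have h1 := FA_S22_hasDerivAt_tay hE j τ
    have h2 : HasDerivAt (fun w : ℂ => FA_S22_tay n j w (E (ofComplex w))) 0 (τ : ℂ) := by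
      have hc := hasDerivAt_const (τ : ℂ) (FA_S22_tay n j τ (E τ))
      refine hc.congr_of_eventuallyEq ?_
      filter_upwards [isOpen_upperHalfPlaneSet.mem_nhds τ.im_pos] with w hw
      have := hconst (ofComplex w) τ
      rw [ofComplex_apply_of_im_pos hw] at this
      simpa [ofComplex_apply_of_im_pos hw] using this
    exact h1.unique h2
  intro m
  induction m with
  | zero =>
    intro j hj hconst τ
    have hjn : j = n := by omega
    have := hzero j hconst τ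
    rw [if_pos hjn, hjn, FA_S22_tay_top, mul_zero, zero_add, mul_one] at this
    exact this
  | succ m ih =>
    intro j hj hconst τ
    have hjn : j ≠ n := by omega
    apply ih (j + 1) (by omega)
    intro τ₁ τ₂
    have h1 := hzero j hconst τ₁
    have h2 := hzero j hconst τ₂
    rw [if_neg hjn, mul_zero, add_zero] at h1 h2
    have hne : ((j + 1 : ℕ) : ℂ) ≠ 0 := by exact_mod_cast Nat.succ_ne_zero j
    rw [(mul_eq_zero.mp h1).resolve_left hne, (mul_eq_zero.mp h2).resolve_left hne]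

/-- if `G(z) = E(z)(z)` is constant then `f = 0` -/
theorem FA_S22_eq_zero_of_ev_const {n : ℕ} {f : ℍ → ℂ} {E : ℍ → Fin (n + 1) → ℂ}
    (hE : FA_S22_IsEichler n f E)
    (hconst : ∀ τ τ' : ℍ, FA_S22_ev n (τ : ℂ) (E τ) = FA_S22_ev n (τ' : ℂ) (E τ')) :
    ∀ τ, f τ = 0 := by
  apply FA_S22_eq_zero_of_tay_const hE n 0 (by omega)
  intro τ τ'
  rw [FA_S22_tay_zero, FA_S22_tay_zero]
  exact hconst τ τ'

/-- `G(z) = E(z)(z)` is holomorphic -/
theorem FA_S22_mdifferentiable_ev {n : ℕ} {f : ℍ → ℂ} {E : ℍ → Fin (n + 1) → ℂ}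
    (hE : FA_S22_IsEichler n f E) :
    MDifferentiable 𝓘(ℂ) 𝓘(ℂ) (fun τ : ℍ => FA_S22_ev n (τ : ℂ) (E τ)) := by
  intro τ
  rw [mdifferentiableAt_iff]
  have := (FA_S22_hasDerivAt_tay hE 0 τ).differentiableAt
  refine this.congr_of_eventuallyEq ?_
  filter_upwards [isOpen_upperHalfPlaneSet.mem_nhds τ.im_pos] with w hw
  simp only [Function.comp_apply, FA_S22_tay_zero]
  rw [ofComplex_apply_of_im_pos hw]

end FA_S22
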